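/-
P-ORD (S33), block (G-A) "geometry without lifting", owner helper92: INTERFACES.

On top of helper18's abstract nodal interface (`Fermat.Agent.H18.ORD.NodalRvHyp`, `NodalGalHyp`,
`NodalBase`, `NodalRvHyp.bal`) and helper72's target
`Fermat.Agent.H72.ORD.NodalCoordDatumStatement`.

* `nodalJ1 G` : the subgroup `J1` of `J₀(N)(ℚ̄)`, INTRINSIC definition: classes of degree-zero
  divisors without points over the nodes and with net multiplicity zero on every residue disc;
* `IsNodalUnrCoord`, `IsNodalJacSystem` : `g` inertia-fixed base points `O i` over distinct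
  smooth points of the special fibre, non-special in the sense (NS1), (NS2), each with an
  inertia-fixed coordinate `t i` on its disc;
* `IsNodalRep G O c P` : `c = [∑ (P i - O i)]` with `P i` in the disc of `O i`;
* `IsNodalJacCoord` : `z c i = t_i (P i)`;
* the Props of the rows [REP], [UNIQ], [KUM] (= MOVE), [COORD], and of block (G-B) `[ADD]`.
-/
import Fermat.Agent.H18.ORD.NodalBal
import Fermat.Agent.H72.ORD.Interfaces

set_option autoImplicit false
set_option linter.unusedSectionVars false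

noncomputable section

open AlgebraicCurve ModularCurve

namespace Fermat.Agent.H92.ORD

open Fermat.Agent.H18.ORD Fermat.Agent.H72.FF Fermat.Agent.H27.ESD

variable {N : ℕ} {A : ValuationSubring Qb} {Foo F0 : Type} [Field Foo] [Field F0]
  [Algebra (kRes A) Foo] [Algebra (kRes A) F0] {ι : Type}

/-- **Standing hypotheses of block (G-A).** -/
structure NodalSetup (N p : ℕ) (A : ValuationSubring Qb) {Foo F0 : Type} [Field Foo] [Field F0]
    [Algebra (kRes A) Foo] [Algebra (kRes A) F0] {ι : Type} (G : NodalData N A Foo F0 ι)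
    (g : ℕ) : Prop where
  prime : p.Prime
  liesOver : A.LiesOverPrime p
  rv : NodalRvHyp p G
  gal : NodalGalHyp G
  node : Nonempty ι
  pkgL : RiemannPackage Qb (FLb N) g

/-- The intrinsic `J1` : classes of degree-zero divisors `D` without points over the nodes and
with net multiplicity zero on every residue disc. -/
def nodalJ1 (G : NodalData N A Foo F0 ι) : AddSubgroup (JZero N) where
  carrier := {c | ∃ D : Divisor.degZero (K := Qb) (F := FLb N), c = Pic0.mk D ∧
    (∀ P ν, G.r P = NPt.node ν → (D : Divisor Qb (FLb N)) P = 0) ∧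
    Finsupp.mapDomain G.r (D : Divisor Qb (FLb N)) = 0}
  zero_mem' := ⟨0, rfl, fun _ _ _ => rfl, by
    rw [ZeroMemClass.coe_zero, Finsupp.mapDomain_zero]⟩
  add_mem' := by
    rintro _ _ ⟨D, rfl, hD, hD'⟩ ⟨E, rfl, hE, hE'⟩
    refine ⟨D + E, rfl, fun P ν h => ?_, ?_⟩
    · rw [AddMemClass.coe_add, Finsupp.add_apply, hD P ν h, hE P ν h, add_zero]
    · rw [AddMemClass.coe_add, Finsupp.mapDomain_add, hD', hE', add_zero]
  neg_mem' := by
    rintro _ ⟨D, rfl, hD, hD'⟩
    refine ⟨-D, rfl, fun P ν h => ?_, ?_⟩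
    · rw [NegMemClass.coe_neg, Finsupp.neg_apply, hD P ν h, neg_zero]
    · rw [NegMemClass.coe_neg, ← Finsupp.mapDomain.addMonoidHom_apply, map_neg,
        Finsupp.mapDomain.addMonoidHom_apply, hD', neg_zero]

theorem mem_nodalJ1 {G : NodalData N A Foo F0 ι} {c : JZero N} : c ∈ nodalJ1 G ↔
    ∃ D : Divisor.degZero (K := Qb) (F := FLb N), c = Pic0.mk D ∧
      (∀ P ν, G.r P = NPt.node ν → (D : Divisor Qb (FLb N)) P = 0) ∧
      Finsupp.mapDomain G.r (D : Divisor Qb (FLb N)) = 0 := Iff.rfl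

/-- the base divisor on `C_∞` : the smooth points `Q` of `C_∞` under the base points -/
def baseOo (G : NodalData N A Foo F0 ι) {g : ℕ} (O : Fin g → Place Qb (FLb N)) :
    Divisor (kRes A) Foo :=
  ∑ i, (match G.r (O i) with
    | NPt.oo Q => Finsupp.single Q (1 : ℤ)
    | _ => 0)

/-- the base divisor on `C_0` -/
def baseZero (G : NodalData N A Foo F0 ι) {g : ℕ} (O : Fin g → Place Qb (FLb N)) :
    Divisor (kRes A) F0 :=
  ∑ i, (match G.r (O i) with
    | NPt.zero Q => Finsupp.single Q (1 : ℤ)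
    | _ => 0)

/-- An unramified coordinate on the residue disc of the smooth point `G.r P` : `P` and `t` are
fixed by the inertia group, `t` vanishes at `P`, has no pole on the disc and its reduction (on
the component carrying `G.r P`) is a local parameter at `G.r P`. -/
structure IsNodalUnrCoord (G : NodalData N A Foo F0 ι) (P : Place Qb (FLb N)) (t : FLb N) :
    Prop where
  smooth : ∀ ν, G.r P ≠ NPt.node ν
  unrP : IsUnrPlace A N P
  unrT : IsUnrFn A N t
  zero : 1 ≤ P.ord t
  nopole : ∀ P1, G.r P1 = G.r P → 0 ≤ P1.ord t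
  simple_oo : ∀ Q, G.r P = NPt.oo Q → ∃ h : t ∈ G.Voo, Q.ord (G.redOo ⟨t, h⟩) = 1
  simple_zero : ∀ Q, G.r P = NPt.zero Q → ∃ h : t ∈ G.V0, Q.ord (G.red0 ⟨t, h⟩) = 1

/-- A nodal Jacobi system: `g` base points over distinct smooth points, non-special in the sense
(NS1), (NS2) of `NodalBase`, each with an unramified coordinate. -/
structure IsNodalJacSystem (G : NodalData N A Foo F0 ι) (g : ℕ) (O : Fin g → Place Qb (FLb N))
    (t : Fin g → FLb N) : Prop where
  inj : Function.Injective (fun i => G.r (O i))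
  base : NodalBase G (baseOo G O) (baseZero G O)
  coord : ∀ i, IsNodalUnrCoord G (O i) (t i)

/-- "`c` is the class of `∑ (P i - O i)` with `P i` in the disc of `O i`" -/
def IsNodalRep (G : NodalData N A Foo F0 ι) {g : ℕ} (O : Fin g → Place Qb (FLb N))
    (c : JZero N) (P : Fin g → Place Qb (FLb N)) : Prop :=
  ∃ D : Divisor.degZero (K := Qb) (F := FLb N),
    (∀ i, G.r (P i) = G.r (O i)) ∧
    (D : Divisor Qb (FLb N)) = ∑ i, (Finsupp.single (P i) (1 : ℤ) - Finsupp.single (O i) 1) ∧
    c = Pic0.mk D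

/-- `z` is the coordinate map of the system on `J1` : `c ∈ J1` iff `c` has a representation, and
then `z c i = t_i (P i)`. -/
structure IsNodalJacCoord (G : NodalData N A Foo F0 ι) {g : ℕ} (O : Fin g → Place Qb (FLb N))
    (t : Fin g → FLb N) (J1 : AddSubgroup (JZero N)) (z : JZero N → Fin g → Qb) : Prop where
  mem_iff : ∀ c : JZero N, c ∈ J1 ↔ ∃ P, IsNodalRep G O c P
  value : ∀ (c : JZero N) (P : Fin g → Place Qb (FLb N)), IsNodalRep G O c P →
    ∀ i, HasValue (P i) (t i) (z c i)

/-! ### The rows of block (G-A) -/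

/-- **[REP]** Jacobi inversion on `J1` : every class of `nodalJ1` is `[∑ (P i - O i)]` with
`P i` in the disc of `O i`.  (Riemann on the generic fibre, `g` = genus; then
`NodalRvHyp.bal` with `n = 0`, `g = 1`.) -/
def NodalRepStatement : Prop :=
  ∀ (N p : ℕ) (A : ValuationSubring Qb) (Foo F0 : Type) [Field Foo] [Field F0]
    [Algebra (kRes A) Foo] [Algebra (kRes A) F0] (ι : Type) (G : NodalData N A Foo F0 ι)
    (g : ℕ), NodalSetup N p A G g →
    ∀ (O : Fin g → Place Qb (FLb N)) (t : Fin g → FLb N), IsNodalJacSystem G g O t →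
      ∀ c ∈ nodalJ1 G, ∃ P, IsNodalRep G O c P

/-- **[UNIQ]** uniqueness of the representation.  (`NodalRvHyp.bal` with `n = 0`, `g = 1`
applied to `α f + β`, against `NodalRvHyp.lattice`.) -/
def NodalUniqStatement : Prop :=
  ∀ (N p : ℕ) (A : ValuationSubring Qb) (Foo F0 : Type) [Field Foo] [Field F0]
    [Algebra (kRes A) Foo] [Algebra (kRes A) F0] (ι : Type) (G : NodalData N A Foo F0 ι)
    (g : ℕ), NodalSetup N p A G g →
    ∀ (O : Fin g → Place Qb (FLb N)) (t : Fin g → FLb N), IsNodalJacSystem G g O t →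
      ∀ (c : JZero N) (P P' : Fin g → Place Qb (FLb N)),
        IsNodalRep G O c P → IsNodalRep G O c P' → P = P'

/-- **[KUM] = MOVE + Kummer wiring** : (a') with `c = 1`. -/
def NodalKummerStatement : Prop :=
  ∀ (N p : ℕ) (A : ValuationSubring Qb) (Foo F0 : Type) [Field Foo] [Field F0]
    [Algebra (kRes A) Foo] [Algebra (kRes A) F0] (ι : Type) (G : NodalData N A Foo F0 ι)
    (g : ℕ), NodalSetup N p A G g →
    ∀ (O : Fin g → Place Qb (FLb N)) (t : Fin g → FLb N), IsNodalJacSystem G g O t →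
      ∀ n : ℕ, ∀ σ ∈ A.inertiaSubgroupIn ℚ, ∀ x : JZero N, p ^ n • x = 0 →
        ∃ P, IsNodalRep G O (σ • x - x) P

/-- **[COORD] + assembly of (G-A)** : the first four fields of `IsCoordDatumI` and (a') for
`J1 = nodalJ1 G` and the coordinate map of a nodal Jacobi system. -/
def NodalJacCoordStatement : Prop :=
  ∀ (N p : ℕ) (A : ValuationSubring Qb) (Foo F0 : Type) [Field Foo] [Field F0]
    [Algebra (kRes A) Foo] [Algebra (kRes A) F0] (ι : Type) (G : NodalData N A Foo F0 ι)
    (g : ℕ), NodalSetup N p A G g →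
    ∀ (O : Fin g → Place Qb (FLb N)) (t : Fin g → FLb N), IsNodalJacSystem G g O t →
      ∃ z : JZero N → Fin g → Qb, IsNodalJacCoord G O t (nodalJ1 G) z ∧
        (∀ c ∈ nodalJ1 G, ∀ i, z c i ∈ A ∧ z c i ∈ A.nonunits) ∧
        (∀ c ∈ nodalJ1 G, ∀ c' ∈ nodalJ1 G, z c = z c' → c = c') ∧
        (∀ σ ∈ A.inertiaSubgroupIn ℚ, ∀ c ∈ nodalJ1 G, σ • c ∈ nodalJ1 G) ∧
        (∀ σ ∈ A.inertiaSubgroupIn ℚ, ∀ c ∈ nodalJ1 G, ∀ i, z (σ • c) i = σ (z c i)) ∧
        (∀ n : ℕ, ∀ σ ∈ A.inertiaSubgroupIn ℚ, ∀ x : JZero N, p ^ n • x = 0 →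
          σ • x - x ∈ nodalJ1 G)

/-! ### Block (G-B) -/

/-- **[ADD] (block (G-B), nodal FF-G7)** : the group law in nodal Jacobi coordinates is
approximable by polynomials over `R = unrInt A`.  `Lift` is the lifting package of block (G-B)
(helper18's `NodalLift`), left as a parameter here. -/
def NodalAddApproxStatement (Lift : ∀ (N : ℕ) (A : ValuationSubring Qb) (Foo F0 : Type)
    [Field Foo] [Field F0] [Algebra (kRes A) Foo] [Algebra (kRes A) F0] (ι : Type),
    NodalData N A Foo F0 ι → Prop) : Prop :=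
  ∀ (N p : ℕ) (A : ValuationSubring Qb) (Foo F0 : Type) [Field Foo] [Field F0]
    [Algebra (kRes A) Foo] [Algebra (kRes A) F0] (ι : Type) (G : NodalData N A Foo F0 ι)
    (g : ℕ), NodalSetup N p A G g → Lift N A Foo F0 ι G →
    ∀ (O : Fin g → Place Qb (FLb N)) (t : Fin g → FLb N), IsNodalJacSystem G g O t →
      ∀ (J1 : AddSubgroup (JZero N)) (z : JZero N → Fin g → Qb), IsNodalJacCoord G O t J1 z →
      ∀ S : Finset (JZero N), (∀ c ∈ S, c ∈ J1) → ∀ M : ℕ,
        ∃ Gp : Fin g → MvPolynomial (Fin g ⊕ Fin g) Qb,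
          (∀ i m, (Gp i).coeff m ∈ unrInt A) ∧
          ∀ c ∈ S, ∀ c' ∈ S, ∀ i, ∃ a ∈ A,
            z (c + c') i - MvPolynomial.eval (Sum.elim (z c) (z c')) (Gp i) = (p : Qb) ^ M * a

end Fermat.Agent.H92.ORD

end
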