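/-
P-ORD (S33), block (G-A), row ORD-GA-COORD (helper92): nodal Jacobi coordinates on `nodalJ1 G`.

`nodalJacCoord : NodalRepStatement → NodalUniqStatement → NodalKummerStatement →
  NodalJacCoordStatement`.

Port of `Fermat.Agent.H56.FF.JacCoord` (good reduction) to the two-component fibre; the value
lemma is derived from the conservation law (M2) of `NodalRvHyp`.
-/
import Fermat.Agent.H92.ORD.NodalJacDefs
import Fermat.Agent.H56.FF.JacGeneric

set_option autoImplicit false
set_option linter.unusedSectionVars false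
set_option linter.style.haveILetI false
set_option synthInstance.maxHeartbeats 400000

noncomputable section

open AlgebraicCurve ModularCurve

namespace Fermat.Agent.H92.ORD

open Fermat.Agent.H18.ORD Fermat.Agent.H72.FF Fermat.Agent.H27.ESD Fermat.Agent.H56.FF
open Fermat.Agent.H10.FF

/-! ### Generic: multiplicities of a pushforward -/

section Comb

variable {α β : Type*}

theorem gaMapDomain_apply (r : α → β) (D : α →₀ ℤ) (q : β) [DecidableEq β] :
    Finsupp.mapDomain r D q = ∑ P ∈ D.support, if r P = q then D P else 0 := by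
  rw [Finsupp.mapDomain, Finsupp.sum_apply, Finsupp.sum]
  refine Finset.sum_congr rfl fun a _ => ?_
  rw [Finsupp.single_apply]

/-- one point of the fibre -/
theorem gaMapDomain_ge_one (r : α → β) (D : α →₀ ℤ) (q : β)
    (hnn : ∀ P, r P = q → 0 ≤ D P) {P0 : α} (h0 : r P0 = q) :
    D P0 ≤ Finsupp.mapDomain r D q := by
  classical
  rw [gaMapDomain_apply]
  by_cases hs : P0 ∈ D.support
  · have h := Finset.single_le_sum (f := fun P => if r P = q then D P else 0)
      (fun P _ => by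
        show (0 : ℤ) ≤ if r P = q then D P else 0
        split_ifs with h
        · exact hnn P h
        · exact le_rfl) hs
    simpa [h0] using h
  · have hz : D P0 = 0 := Finsupp.notMem_support_iff.mp hs
    rw [hz]
    refine Finset.sum_nonneg fun P _ => ?_
    split_ifs with h
    · exact hnn P h
    · exact le_rfl

/-- two distinct points of the fibre -/
theorem gaMapDomain_ge_two (r : α → β) (D : α →₀ ℤ) (q : β)
    (hnn : ∀ P, r P = q → 0 ≤ D P) {P0 P1 : α} (h0 : r P0 = q) (h1 : r P1 = q)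
    (hne : P0 ≠ P1) : D P0 + D P1 ≤ Finsupp.mapDomain r D q := by
  classical
  rw [gaMapDomain_apply]
  have hf : ∀ P ∈ D.support ∪ {P0, P1}, (0 : ℤ) ≤ if r P = q then D P else 0 := by
    intro P _
    split_ifs with h
    · exact hnn P h
    · exact le_rfl
  have e1 : ∑ P ∈ D.support, (if r P = q then D P else 0) =
      ∑ P ∈ D.support ∪ {P0, P1}, (if r P = q then D P else 0) := by
    refine Finset.sum_subset Finset.subset_union_left fun P _ hP => ?_
    rw [Finsupp.notMem_support_iff.mp hP]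
    split_ifs <;> rfl
  have e2 : ∑ P ∈ ({P0, P1} : Finset α), (if r P = q then D P else 0) = D P0 + D P1 := by
    rw [Finset.sum_pair hne, if_pos h0, if_pos h1]
  rw [e1, ← e2]
  exact Finset.sum_le_sum_of_subset_of_nonneg Finset.subset_union_right
    (fun P hP _ => hf P hP)

end Comb

variable {N p : ℕ} {A : ValuationSubring Qb} {Foo F0 : Type} [Field Foo] [Field F0]
  [Algebra (kRes A) Foo] [Algebra (kRes A) F0] {ι : Type} {G : NodalData N A Foo F0 ι} {g : ℕ}

/-! ### Representations -/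

/-- the divisor `∑ (P i - O i)` as an element of `Div⁰` -/
def gaJdiv (hdeg : ∀ v : Place Qb (FLb N), v.deg = 1) (P O : Fin g → Place Qb (FLb N)) :
    Divisor.degZero (K := Qb) (F := FLb N) :=
  ⟨∑ i, (Finsupp.single (P i) (1 : ℤ) - Finsupp.single (O i) 1), degree_sum_sub hdeg P O⟩

theorem coe_gaJdiv (hdeg : ∀ v : Place Qb (FLb N), v.deg = 1) (P O : Fin g → Place Qb (FLb N)) :
    ((gaJdiv hdeg P O : Divisor.degZero (K := Qb) (F := FLb N)) : Divisor Qb (FLb N)) =
      ∑ i, (Finsupp.single (P i) (1 : ℤ) - Finsupp.single (O i) 1) := rfl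

theorem isNodalRep_iff (hdeg : ∀ v : Place Qb (FLb N), v.deg = 1)
    {O : Fin g → Place Qb (FLb N)} {c : JZero N} {P : Fin g → Place Qb (FLb N)} :
    IsNodalRep G O c P ↔ (∀ i, G.r (P i) = G.r (O i)) ∧ c = Pic0.mk (gaJdiv hdeg P O) := by
  constructor
  · rintro ⟨D, hP, hD, rfl⟩
    refine ⟨hP, congrArg Pic0.mk (Subtype.ext ?_)⟩
    rw [hD, coe_gaJdiv]
  · rintro ⟨hP, rfl⟩
    exact ⟨gaJdiv hdeg P O, hP, rfl, rfl⟩

/-- a representation lies in the intrinsic `J1` -/
theorem mem_nodalJ1_of_isNodalRep {O : Fin g → Place Qb (FLb N)}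
    (hsm : ∀ i ν, G.r (O i) ≠ NPt.node ν) {c : JZero N} {P : Fin g → Place Qb (FLb N)}
    (h : IsNodalRep G O c P) : c ∈ nodalJ1 G := by
  classical
  obtain ⟨D, hP, hD, rfl⟩ := h
  refine ⟨D, rfl, fun P1 ν hP1 => ?_, ?_⟩
  · rw [hD, Finsupp.finsetSum_apply]
    refine Finset.sum_eq_zero fun i _ => ?_
    rw [Finsupp.sub_apply, Finsupp.single_apply, Finsupp.single_apply, if_neg, if_neg, sub_zero]
    · intro hO
      exact hsm i ν (by rw [hO]; exact hP1)
    · intro hPi
      exact hsm i ν (by rw [← hP i, hPi]; exact hP1)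
  · rw [hD, mapDomain_sum_sub]
    exact Finset.sum_eq_zero fun i _ => by rw [hP i, sub_self]

/-! ### The value lemma on a smooth disc, from (M2) -/

/-- the divisor of a nonzero function -/
theorem gaExists_div (pkg : RiemannPackage Qb (FLb N) g) (u : FLb N) (hu : u ≠ 0) :
    ∃ D : Divisor Qb (FLb N), ∀ P, D P = P.ord u := by
  obtain ⟨D, hD, -⟩ := pkg.principal.exists_divisor u hu
  exact ⟨D, hD⟩

section OrdLemmas

variable {K F : Type*} [Field K] [Field F] [Algebra K F]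

/-- `ord (x - 1) = 0` if `x = 0` or `ord x ≥ 1` -/
theorem gaOrd_sub_one (Q : Place K F) {x : F} (hx : x = 0 ∨ 1 ≤ Q.ord x) :
    x - 1 ≠ 0 ∧ Q.ord (x - 1) = 0 := by
  rcases hx with rfl | hx
  · refine ⟨by simp, ?_⟩
    rw [zero_sub, Fermat.Agent.H23.ord_neg, Place.ord_one]
  · have hx0 : x ≠ 0 := by
      intro h
      rw [h, Place.ord_zero] at hx
      omega
    have h1 : Q.ord ((-1 : F) + x) = Q.ord (-1 : F) :=
      Fermat.Agent.H23.ord_add_eq_of_lt Q (by simp) hx0
        (by rw [Fermat.Agent.H23.ord_neg, Place.ord_one]; omega)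
    rw [Fermat.Agent.H23.ord_neg, Place.ord_one] at h1
    have e : x - 1 = -1 + x := by ring
    refine ⟨?_, by rw [e, h1]⟩
    intro h
    have : x = 1 := by linear_combination h
    rw [this, Place.ord_one] at hx
    omega

end OrdLemmas

/-- residue of an element of the maximal ideal -/
theorem gaResidue_eq_zero {a : Qb} (ha : a ∈ A.nonunits) :
    IsLocalRing.residue A ⟨a, A.nonunits_subset ha⟩ = 0 := by
  rw [IsLocalRing.residue_eq_zero_iff]
  have : (⟨a, A.nonunits_subset ha⟩ : A) ∈ IsLocalRing.maximalIdeal A := by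
    rw [IsLocalRing.mem_maximalIdeal, mem_nonunits_iff]
    intro hu
    have h1 := (A.mem_nonunits_iff_exists_mem_maximalIdeal).mp ha
    obtain ⟨ha', hmem⟩ := h1
    rw [IsLocalRing.mem_maximalIdeal, mem_nonunits_iff] at hmem
    exact hmem hu
  exact this

/-! ### The disc calculus on one component (generic core) -/

section Core

variable {Fc : Type} [Field Fc] [Algebra (kRes A) Fc]
  {β : Type} (r : Place Qb (FLb N) → β) (q : β)
  (V : Subring (FLb N)) (red : V →+* Fc) (Q : Place (kRes A) Fc)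

/-- **value lemma (core)**: if `t` is a coordinate on the disc `r⁻¹ q` (no pole on the disc,
reduction with a simple zero at `Q`) and (M2) holds on the disc, every value of `t` on the disc
lies in the maximal ideal. -/
theorem gaValue_core (pkg : RiemannPackage Qb (FLb N) g)
    (hconst : ∀ c : Qb, algebraMap Qb (FLb N) c ∈ V ↔ c ∈ A)
    (hredc : ∀ (c : A) (h : algebraMap Qb (FLb N) (c : Qb) ∈ V),
      red ⟨_, h⟩ = algebraMap (kRes A) Fc (IsLocalRing.residue A c))
    (hM2 : ∀ u : V, red u ≠ 0 → ∀ D : Divisor Qb (FLb N), (∀ P, D P = P.ord (u : FLb N)) →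
      Finsupp.mapDomain r D q = Q.ord (red u))
    {t : FLb N} (ht : t ∈ V) (hsimple : Q.ord (red ⟨t, ht⟩) = 1)
    (hnopole : ∀ P1, r P1 = q → 0 ≤ P1.ord t)
    {P : Place Qb (FLb N)} (hP : r P = q) {a : Qb}
    (h1 : 1 ≤ P.ord (t - algebraMap Qb (FLb N) a)) : a ∈ A.nonunits := by
  by_contra hnon
  have hval : ¬ A.valuation a < 1 := fun h => hnon ((A.mem_nonunits_iff).mpr h)
  have ha0 : a ≠ 0 := by
    intro h
    apply hval
    rw [h, map_zero]
    exact zero_lt_one
  have hb : a⁻¹ ∈ A := by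
    rw [← A.valuation_le_one_iff, map_inv₀]
    exact inv_le_one_of_one_le₀ (not_lt.mp hval)
  have hb0 : a⁻¹ ≠ 0 := inv_ne_zero ha0
  have hbV : algebraMap Qb (FLb N) a⁻¹ ∈ V := (hconst _).mpr hb
  obtain ⟨u, hu⟩ : ∃ u : FLb N, u = algebraMap Qb (FLb N) a⁻¹ * t - 1 := ⟨_, rfl⟩
  have huV : u ∈ V := by
    rw [hu]
    exact V.sub_mem (V.mul_mem hbV ht) V.one_mem
  have hredu : red ⟨u, huV⟩ =
      algebraMap (kRes A) Fc (IsLocalRing.residue A ⟨a⁻¹, hb⟩) * red ⟨t, ht⟩ - 1 := by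
    have e : (⟨u, huV⟩ : V) = ⟨algebraMap Qb (FLb N) a⁻¹, hbV⟩ * ⟨t, ht⟩ - 1 :=
      Subtype.ext hu
    rw [e, map_sub, map_mul, map_one, hredc ⟨a⁻¹, hb⟩ hbV]
  have hredt0 : red ⟨t, ht⟩ ≠ 0 := by
    intro h
    rw [h, Place.ord_zero] at hsimple
    omega
  have hx : algebraMap (kRes A) Fc (IsLocalRing.residue A ⟨a⁻¹, hb⟩) * red ⟨t, ht⟩ = 0 ∨
      1 ≤ Q.ord (algebraMap (kRes A) Fc (IsLocalRing.residue A ⟨a⁻¹, hb⟩) * red ⟨t, ht⟩) := by
    by_cases hκ : IsLocalRing.residue A ⟨a⁻¹, hb⟩ = 0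
    · left
      rw [hκ, map_zero, zero_mul]
    · right
      rw [nb_ord_const_mul Q hκ, hsimple]
  obtain ⟨hne1, hord⟩ := gaOrd_sub_one Q hx
  rw [← hredu] at hne1 hord
  have hu0 : u ≠ 0 := by
    intro h
    apply hne1
    have : (⟨u, huV⟩ : V) = 0 := Subtype.ext h
    rw [this, map_zero]
  obtain ⟨D, hD⟩ := gaExists_div pkg u hu0
  have hm := hM2 ⟨u, huV⟩ hne1 D hD
  rw [hord] at hm
  have hfac : u = algebraMap Qb (FLb N) a⁻¹ * (t - algebraMap Qb (FLb N) a) := by
    rw [hu, mul_sub, ← map_mul, inv_mul_cancel₀ ha0, map_one]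
  have hordu : ∀ P1 : Place Qb (FLb N), P1.ord u = P1.ord (t - algebraMap Qb (FLb N) a) := by
    intro P1
    rw [hfac, nb_ord_const_mul P1 hb0]
  have hnn : ∀ P1, r P1 = q → 0 ≤ D P1 := by
    intro P1 hP1
    rw [hD, hordu]
    exact ord_sub_algebraMap_nonneg P1 (hnopole P1 hP1) a
  have h2 := gaMapDomain_ge_one r D q hnn hP
  rw [hm, hD, hordu] at h2
  omega

/-- **separation (core)**: a coordinate separates the points of its disc. -/
theorem gaSep_core (pkg : RiemannPackage Qb (FLb N) g)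
    (hconst : ∀ c : Qb, algebraMap Qb (FLb N) c ∈ V ↔ c ∈ A)
    (hredc : ∀ (c : A) (h : algebraMap Qb (FLb N) (c : Qb) ∈ V),
      red ⟨_, h⟩ = algebraMap (kRes A) Fc (IsLocalRing.residue A c))
    (hM2 : ∀ u : V, red u ≠ 0 → ∀ D : Divisor Qb (FLb N), (∀ P, D P = P.ord (u : FLb N)) →
      Finsupp.mapDomain r D q = Q.ord (red u))
    {t : FLb N} (ht : t ∈ V) (hsimple : Q.ord (red ⟨t, ht⟩) = 1)
    (hnopole : ∀ P1, r P1 = q → 0 ≤ P1.ord t)
    {P P' : Place Qb (FLb N)} (hP : r P = q) (hP' : r P' = q) {a : Qb}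
    (h1 : 1 ≤ P.ord (t - algebraMap Qb (FLb N) a))
    (h1' : 1 ≤ P'.ord (t - algebraMap Qb (FLb N) a)) : P' = P := by
  have ha : a ∈ A.nonunits :=
    gaValue_core r q V red Q pkg hconst hredc hM2 ht hsimple hnopole hP h1
  have haA : a ∈ A := A.nonunits_subset ha
  have haV : algebraMap Qb (FLb N) a ∈ V := (hconst _).mpr haA
  obtain ⟨u, hu⟩ : ∃ u : FLb N, u = t - algebraMap Qb (FLb N) a := ⟨_, rfl⟩
  have huV : u ∈ V := by
    rw [hu]
    exact V.sub_mem ht haV
  have hredu : red ⟨u, huV⟩ = red ⟨t, ht⟩ := by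
    have e : (⟨u, huV⟩ : V) = ⟨t, ht⟩ - ⟨algebraMap Qb (FLb N) a, haV⟩ := Subtype.ext hu
    rw [e, map_sub, hredc ⟨a, haA⟩ haV, gaResidue_eq_zero ha, map_zero, sub_zero]
  have hredt0 : red ⟨t, ht⟩ ≠ 0 := by
    intro h
    rw [h, Place.ord_zero] at hsimple
    omega
  have hu0 : u ≠ 0 := by
    intro h
    apply hredt0
    rw [← hredu]
    have : (⟨u, huV⟩ : V) = 0 := Subtype.ext h
    rw [this, map_zero]
  obtain ⟨D, hD⟩ := gaExists_div pkg u hu0
  have hm := hM2 ⟨u, huV⟩ (by rw [hredu]; exact hredt0) D hD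
  rw [hredu, hsimple] at hm
  have hnn : ∀ P1, r P1 = q → 0 ≤ D P1 := by
    intro P1 hP1
    rw [hD, hu]
    exact ord_sub_algebraMap_nonneg P1 (hnopole P1 hP1) a
  by_contra hne
  have h2 := gaMapDomain_ge_two r D q hnn hP hP' (fun h => hne h.symm)
  rw [hm, hD, hD, hu] at h2
  omega

end Core

/-- **value lemma**: the values of an unramified coordinate on its disc lie in the maximal
ideal. -/
theorem gaValue_mem_nonunits (hS : NodalSetup N p A G g) {O₁ : Place Qb (FLb N)} {t : FLb N}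
    (hc : IsNodalUnrCoord G O₁ t) {P : Place Qb (FLb N)} (hP : G.r P = G.r O₁) {a : Qb}
    (ha : HasValue P t a) : a ∈ A.nonunits := by
  have H := hS.rv
  have hne : t ≠ algebraMap Qb (FLb N) a := ne_algebraMap_of_ord_pos O₁ hc.zero a
  have h1 : 1 ≤ P.ord (t - algebraMap Qb (FLb N) a) := ha.resolve_left hne
  rcases hr : G.r O₁ with Q | Q | ν
  · obtain ⟨ht, hsimple⟩ := hc.simple_oo Q hr
    exact gaValue_core G.r (NPt.oo Q) G.Voo G.redOo Q hS.pkgL H.const_oo H.red_const_oo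
      (fun u hu D hD => H.smooth_oo u hu D hD Q (H.r_oo O₁ Q hr)) ht hsimple
      (fun P1 hP1 => hc.nopole P1 (hP1.trans hr.symm)) (hP.trans hr) h1
  · obtain ⟨ht, hsimple⟩ := hc.simple_zero Q hr
    exact gaValue_core G.r (NPt.zero Q) G.V0 G.red0 Q hS.pkgL H.const_zero H.red_const_zero
      (fun u hu D hD => H.smooth_zero u hu D hD Q (H.r_zero O₁ Q hr)) ht hsimple
      (fun P1 hP1 => hc.nopole P1 (hP1.trans hr.symm)) (hP.trans hr) h1
  · exact absurd hr (hc.smooth ν)

/-- an unramified coordinate separates the points of its disc -/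
theorem gaPlace_eq_of_value_eq (hS : NodalSetup N p A G g) {O₁ : Place Qb (FLb N)} {t : FLb N}
    (hc : IsNodalUnrCoord G O₁ t) {P P' : Place Qb (FLb N)} (hP : G.r P = G.r O₁)
    (hP' : G.r P' = G.r O₁) {a : Qb} (ha : HasValue P t a) (ha' : HasValue P' t a) :
    P' = P := by
  have H := hS.rv
  have hne : t ≠ algebraMap Qb (FLb N) a := ne_algebraMap_of_ord_pos O₁ hc.zero a
  have h1 : 1 ≤ P.ord (t - algebraMap Qb (FLb N) a) := ha.resolve_left hne
  have h1' : 1 ≤ P'.ord (t - algebraMap Qb (FLb N) a) := ha'.resolve_left hne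
  rcases hr : G.r O₁ with Q | Q | ν
  · obtain ⟨ht, hsimple⟩ := hc.simple_oo Q hr
    exact gaSep_core G.r (NPt.oo Q) G.Voo G.redOo Q hS.pkgL H.const_oo H.red_const_oo
      (fun u hu D hD => H.smooth_oo u hu D hD Q (H.r_oo O₁ Q hr)) ht hsimple
      (fun P1 hP1 => hc.nopole P1 (hP1.trans hr.symm)) (hP.trans hr) (hP'.trans hr) h1 h1'
  · obtain ⟨ht, hsimple⟩ := hc.simple_zero Q hr
    exact gaSep_core G.r (NPt.zero Q) G.V0 G.red0 Q hS.pkgL H.const_zero H.red_const_zero
      (fun u hu D hD => H.smooth_zero u hu D hD Q (H.r_zero O₁ Q hr)) ht hsimple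
      (fun P1 hP1 => hc.nopole P1 (hP1.trans hr.symm)) (hP.trans hr) (hP'.trans hr) h1 h1'
  · exact absurd hr (hc.smooth ν)

/-! ### The coordinate map -/

/-- value of a function at a place (junk value `0` if there is none) -/
def gaPval (P : Place Qb (FLb N)) (y : FLb N) : Qb :=
  haveI := Classical.propDecidable
  if h : ∃ c, HasValue P y c then h.choose else 0

theorem hasValue_gaPval (hdeg : ∀ v : Place Qb (FLb N), v.deg = 1) (P : Place Qb (FLb N))
    (y : FLb N) (hy : 0 ≤ P.ord y) : HasValue P y (gaPval P y) := by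
  have hex : ∃ c, HasValue P y c := hasVal_exists P (hdeg P) hy
  unfold gaPval
  rw [dif_pos hex]
  exact hex.choose_spec

/-- the coordinate map -/
def nodalZ (G : NodalData N A Foo F0 ι) (O : Fin g → Place Qb (FLb N)) (t : Fin g → FLb N)
    (c : JZero N) (i : Fin g) : Qb :=
  haveI := Classical.propDecidable
  if h : ∃ P, IsNodalRep G O c P then gaPval (h.choose i) (t i) else 0

theorem nodalZ_value (hU : NodalUniqStatement) (hS : NodalSetup N p A G g)
    {O : Fin g → Place Qb (FLb N)} {t : Fin g → FLb N} (hsys : IsNodalJacSystem G g O t)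
    (c : JZero N) (P : Fin g → Place Qb (FLb N)) (h : IsNodalRep G O c P) (i : Fin g) :
    HasValue (P i) (t i) (nodalZ G O t c i) := by
  have hex : ∃ P, IsNodalRep G O c P := ⟨P, h⟩
  have hPeq : hex.choose = P :=
    hU N p A Foo F0 ι G g hS O t hsys c _ _ hex.choose_spec h
  unfold nodalZ
  rw [dif_pos hex, hPeq]
  obtain ⟨D, hP, -, -⟩ := h
  exact hasValue_gaPval hS.pkgL.deg_one (P i) _ ((hsys.coord i).nopole (P i) (hP i))

/-! ### Galois action -/

theorem gaSmul_mk_jdiv (hdeg : ∀ v : Place Qb (FLb N), v.deg = 1) (σ : GQ)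
    (P O : Fin g → Place Qb (FLb N)) :
    σ • (Pic0.mk (gaJdiv hdeg P O) : JZero N) =
      Pic0.mk (gaJdiv hdeg (fun i => galF N σ • P i) (fun i => galF N σ • O i)) := by
  rw [ModularCurve.galois_smul_pic0_def, SemilinearAut.pic0_smul_mk]
  refine congrArg Pic0.mk (Subtype.ext ?_)
  rw [SemilinearAut.coe_degZeroSMulHom, coe_gaJdiv, coe_gaJdiv, smul_sum_sub]

/-- `nodalJ1` is stable under the inertia group -/
theorem nodalJ1_inertia_stable (hgal : NodalGalHyp G) (σ : GQ)
    (hσ : σ ∈ A.inertiaSubgroupIn ℚ) (c : JZero N) (hc : c ∈ nodalJ1 G) :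
    σ • c ∈ nodalJ1 G := by
  obtain ⟨D, rfl, hD, hD'⟩ := hc
  have hσi : σ⁻¹ ∈ A.inertiaSubgroupIn ℚ := inv_mem hσ
  rw [ModularCurve.galois_smul_pic0_def, SemilinearAut.pic0_smul_mk]
  refine ⟨_, rfl, fun P ν hP => ?_, ?_⟩
  · rw [SemilinearAut.coe_degZeroSMulHom, SemilinearAut.divisor_smul_apply]
    refine hD _ ν ?_
    have h1 := hgal.inertia_r σ hσ ((galF N σ)⁻¹ • P)
    rw [smul_inv_smul] at h1
    rw [← h1]
    exact hP
  · rw [SemilinearAut.coe_degZeroSMulHom, SemilinearAut.divisor_smul_def,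
      ← Finsupp.mapDomain_comp]
    have h0 : Finsupp.mapDomain (G.r ∘ fun v => galF N σ • v) (D : Divisor Qb (FLb N)) =
        Finsupp.mapDomain G.r (D : Divisor Qb (FLb N)) :=
      Finsupp.mapDomain_congr fun v _ => hgal.inertia_r σ hσ v
    rw [h0]
    exact hD'

/-- the representation of `σ • c`, `σ` in the inertia group -/
theorem isNodalRep_smul (hS : NodalSetup N p A G g)
    {O : Fin g → Place Qb (FLb N)} {t : Fin g → FLb N} (hsys : IsNodalJacSystem G g O t)
    (σ : GQ) (hσ : σ ∈ A.inertiaSubgroupIn ℚ) {c : JZero N} {P : Fin g → Place Qb (FLb N)}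
    (h : IsNodalRep G O c P) : IsNodalRep G O (σ • c) (fun j => galF N σ • P j) := by
  have hσO : (fun j => galF N σ • O j) = O := funext fun j => (hsys.coord j).unrP σ hσ
  rw [isNodalRep_iff hS.pkgL.deg_one] at h ⊢
  obtain ⟨hP, rfl⟩ := h
  refine ⟨fun j => ?_, ?_⟩
  · show G.r (galF N σ • P j) = G.r (O j)
    rw [hS.gal.inertia_r σ hσ (P j)]
    exact hP j
  · rw [gaSmul_mk_jdiv, hσO]

theorem nodalZ_equiv (hR : NodalRepStatement) (hU : NodalUniqStatement)
    (hS : NodalSetup N p A G g)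
    {O : Fin g → Place Qb (FLb N)} {t : Fin g → FLb N} (hsys : IsNodalJacSystem G g O t)
    (σ : GQ) (hσ : σ ∈ A.inertiaSubgroupIn ℚ) (c : JZero N) (hc : c ∈ nodalJ1 G) (i : Fin g) :
    nodalZ G O t (σ • c) i = σ (nodalZ G O t c i) := by
  obtain ⟨P, hrep⟩ := hR N p A Foo F0 ι G g hS O t hsys c hc
  have hv := nodalZ_value hU hS hsys c P hrep i
  have hrep' := isNodalRep_smul hS hsys σ hσ hrep
  have hv' := nodalZ_value hU hS hsys (σ • c) _ hrep' i
  have hv'' := hasVal_smul (galF N σ) (P i) hv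
  rw [(hsys.coord i).unrT σ hσ] at hv''
  exact hasVal_unique _ hv' hv''

/-! ### Assembly of block (G-A) -/

/-- **Block (G-A).** -/
theorem nodalJacCoord (hR : NodalRepStatement) (hU : NodalUniqStatement)
    (hK : NodalKummerStatement) : NodalJacCoordStatement := by
  intro N p A Foo F0 _ _ _ _ ι G g hS O t hsys
  have hsm : ∀ i ν, G.r (O i) ≠ NPt.node ν := fun i ν => (hsys.coord i).smooth ν
  refine ⟨nodalZ G O t, ⟨fun c => ⟨fun hc => hR N p A Foo F0 ι G g hS O t hsys c hc, ?_⟩,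
    fun c P h i => nodalZ_value hU hS hsys c P h i⟩, ?_, ?_, ?_, ?_, ?_⟩
  · rintro ⟨P, h⟩
    exact mem_nodalJ1_of_isNodalRep hsm h
  · intro c hc i
    obtain ⟨P, hrep⟩ := hR N p A Foo F0 ι G g hS O t hsys c hc
    have hv := nodalZ_value hU hS hsys c P hrep i
    obtain ⟨D, hP, -, -⟩ := hrep
    have hmem := gaValue_mem_nonunits hS (hsys.coord i) (hP i) hv
    exact ⟨A.nonunits_subset hmem, hmem⟩
  · intro c hc c' hc' hzz
    obtain ⟨P, hrep⟩ := hR N p A Foo F0 ι G g hS O t hsys c hc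
    obtain ⟨P', hrep'⟩ := hR N p A Foo F0 ι G g hS O t hsys c' hc'
    have hPP : P' = P := by
      funext i
      have hv := nodalZ_value hU hS hsys c P hrep i
      have hv' := nodalZ_value hU hS hsys c' P' hrep' i
      rw [← hzz] at hv'
      obtain ⟨D, hP, -, -⟩ := hrep
      obtain ⟨D', hP', -, -⟩ := hrep'
      exact gaPlace_eq_of_value_eq hS (hsys.coord i) (hP i) (hP' i) hv hv'
    rw [isNodalRep_iff hS.pkgL.deg_one] at hrep hrep'
    rw [hrep.2, hrep'.2, hPP]
  · exact fun σ hσ c hc => nodalJ1_inertia_stable hS.gal σ hσ c hc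
  · exact fun σ hσ c hc i => nodalZ_equiv hR hU hS hsys σ hσ c hc i
  · intro n σ hσ x hx
    obtain ⟨P, h⟩ := hK N p A Foo F0 ι G g hS O t hsys n σ hσ x hx
    exact mem_nodalJ1_of_isNodalRep hsm h

end Fermat.Agent.H92.ORD

end
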