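/-
P-ORD (S33), block (G-A) CLOSED (helper92): `nodalJacCoordClosed : NodalJacCoordStatement`,
unconditional, from

* `Fermat.Agent.H92.ORD.nodalJacCoord` (helper92, row 1135),
* `Fermat.Agent.H21.Ord.nodalRep`, `Fermat.Agent.H21.Ord.nodalUniq` (helper21, rows 1132, 1133),
* `Fermat.Agent.H20.ORD.nodalKummer` (helper20, row 1134; MOVE by helper87, BAL by helper18).
-/
import Fermat.Agent.H92.ORD.NodalJacCoord
import Fermat.Agent.H21.Ord.NodalRep
import Fermat.Agent.H20.ORD.NodalKummer

set_option autoImplicit false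

namespace Fermat.Agent.H92.ORD

/-- **Block (G-A) of P-ORD, unconditional.** -/
theorem nodalJacCoordClosed : NodalJacCoordStatement :=
  nodalJacCoord Fermat.Agent.H21.Ord.nodalRep Fermat.Agent.H21.Ord.nodalUniq
    Fermat.Agent.H20.ORD.nodalKummer

end Fermat.Agent.H92.ORD
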