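/-
P-ORD (S33), block B1-RR (helper92): the function field of the components of the special fibre.

For a prime `q` and a field `k` of characteristic `q`, the subfield
`modularFunctionFieldFullC k (M * q) = k(j(t^d) : d ∣ M q)` of `k((t))` EQUALS the level-`M`
field `modularFunctionFieldFullC k M`, because `j(t^(q d)) = j(t^d)^q` (Frobenius).  Hence the
residue field of the Gauss valuation at level `M q` carries the Riemann-Roch package of the
good-reduction level `M` (`Fermat.Agent.H16.rrModLStatement`).
-/
import Fermat.Agent.H42.SS.QExp2GI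
import Fermat.Agent.H16.ESDRRModL
import Fermat.Agent.H18.ORD.NodalBal

set_option autoImplicit false
set_option linter.unusedSectionVars false
set_option linter.style.haveILetI false
set_option synthInstance.maxHeartbeats 400000

noncomputable section

open ModularCurve AlgebraicCurve

namespace Fermat.Agent.H92.ORD

section FieldEq

variable (q : ℕ) [hq : Fact q.Prime] (k : Type) [Field k] [CharP k q]

/-- `j(t^(d q)) = j(t^d)^q` in characteristic `q`. -/
theorem b1_qExpand_mul_prime (d : ℕ) [NeZero d] [NeZero q] [NeZero (d * q)] :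
    qExpand k (d * q) (jqModC k) = (qExpand k d (jqModC k)) ^ q := by
  rw [← qExpand_qExpand q d (jqModC k), Fermat.Agent.H42.SS.qExpand_jqModC_eq_pow q k, map_pow]

/-- **FIELD-EQ**: the level-`M q` field in characteristic `q` is the level-`M` field. -/
theorem b1_fullC_mul_prime (M : ℕ) [NeZero M] [NeZero (M * q)] :
    modularFunctionFieldFullC k (M * q) = modularFunctionFieldFullC k M := by
  haveI : NeZero q := ⟨hq.out.ne_zero⟩
  apply le_antisymm
  · rw [modularFunctionFieldFullC, IntermediateField.adjoin_le_iff]
    rintro x ⟨d, hd0, hd, rfl⟩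
    by_cases hqd : q ∣ d
    · obtain ⟨d', rfl⟩ := hqd
      have hd'0 : d' ≠ 0 := by
        rintro rfl
        exact (NeZero.ne (q * 0)) (by simp)
      haveI : NeZero d' := ⟨hd'0⟩
      have hd'M : d' ∣ M := by
        have h1 : q * d' ∣ q * M := by rwa [mul_comm q M]
        exact (Nat.mul_dvd_mul_iff_left hq.out.pos).mp h1
      haveI : NeZero (d' * q) := ⟨Nat.mul_ne_zero hd'0 hq.out.ne_zero⟩
      have e : qExpand k (q * d') (jqModC k) = qExpand k (d' * q) (jqModC k) :=
        qExpand_congr (mul_comm q d') _
      rw [SetLike.mem_coe, e, b1_qExpand_mul_prime q k d']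
      exact pow_mem (jqModCd_mem_full k M hd'M) q
    · have hcop : Nat.Coprime d q := (Nat.Coprime.symm ((Nat.Prime.coprime_iff_not_dvd hq.out).mpr hqd))
      have hdM : d ∣ M := hcop.dvd_of_dvd_mul_right hd
      exact jqModCd_mem_full k M hdM
  · rw [modularFunctionFieldFullC, IntermediateField.adjoin_le_iff]
    rintro x ⟨d, hd0, hd, rfl⟩
    exact jqModCd_mem_full k (M * q) (Dvd.dvd.mul_right hd q)

end FieldEq

open Fermat.Agent.H72.FF

/-- **B1-RR**: the residue field of the Gauss valuation at level `M p` (`p ∤ M`) satisfies the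
Riemann-Roch hypotheses, and `k` is algebraically closed. -/
theorem b1_rrHyp_component (M p : ℕ) [NeZero M] [NeZero (M * p)] [Fact p.Prime] (hpM : ¬ p ∣ M)
    (A : ValuationSubring Qb) (hA : A.LiesOverPrime p) :
    IsAlgClosed (kRes A) ∧
      Fermat.Agent.H58.RRHyp (kRes A) ↥(modularFunctionFieldFullC (kRes A) (M * p)) := by
  obtain ⟨h1, h2⟩ := Fermat.Agent.H16.rrModLStatement M p hpM A hA
  haveI : CharP (kRes A) p :=
    Fermat.Agent.H18.ORD.nb_charP (Fact.out : p.Prime) hA (kRes A)
  refine ⟨h1, ?_⟩
  rw [b1_fullC_mul_prime p (kRes A) M]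
  exact h2

end Fermat.Agent.H92.ORD

end
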