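/-
P-ORD (S33), block B1-ASM (helper92): THE ADAPTER from helper84's concrete nodal model
(`Fermat.Agent.H84.ORD.nmG`, level `M p`, `p` odd, `p ∤ M`, `4 ∣ M`) to helper72's contract
`Fermat.Agent.H72.ORD.NodalInstanceStatement N' p`, and to the exact hypothesis `hI` of
`Fermat.Agent.H72.ORD.s33_of_blocks` (auxiliary factor `m = 4`).

Inputs (one `Prop` per block, all about the SAME data `nmG`):
  `NmTotStatement`, `NmRvHypStatement`, `NmGalHypStatement`, `NmLiftStatement` (helper84's API),
  `NmNodesStatement` (finitely many nodes, at least one), `NmGenusEqStatement` (count of the nodes).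
Proved here: `algClosed`, `rrOo`, `rrZero` (the residue field of the Gauss ring at level `M p` is
the level-`M` field: helper66's RANGE + `b1_rrHyp_component`), `pkgL`.
-/
import Fermat.Agent.H84.ORD.NodalModelAPI
import Fermat.Agent.H66.ORD.RangeMul
import Fermat.Agent.H92.ORD.ResidueFieldLevel
import Fermat.Agent.H72.ORD.NodalBlocks

set_option autoImplicit false
set_option linter.unusedSectionVars false
set_option linter.style.haveILetI false
set_option synthInstance.maxHeartbeats 400000

noncomputable section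

open ModularCurve AlgebraicCurve

namespace Fermat.Agent.H92.ORD

open Fermat.Agent.H72.FF Fermat.Agent.H18.ORD Fermat.Agent.H84.ORD Fermat.Agent.H27.ESD

/-! ### The function field of the components -/

/-- **RANGE** in the form needed here: the residue field of the Gauss ring at level `M p` is the
level-`M` field in characteristic `p`. -/
theorem b1_nmResField_eq (M p : ℕ) [NeZero M] [NeZero p] (hp : p.Prime) (hpM : ¬ p ∣ M)
    (A : ValuationSubring Qb) (hA : A.LiesOverPrime p) :
    nmResField (M * p) A = modularFunctionFieldFullC (kRes A) M := by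
  ext y
  rw [mem_nmResField_iff]
  exact Fermat.Agent.H66.ORD.gaussRedBar_range_mul M p hp hpM A hA y

/-- Riemann-Roch hypotheses are transported along an equality of intermediate fields. -/
theorem b1_rrHyp_of_eq {K L : Type} [Field K] [Field L] [Algebra K L]
    (E E' : IntermediateField K L) (h : E = E') (hE : Fermat.Agent.H58.RRHyp K ↥E') :
    @Fermat.Agent.H58.RRHyp K ↥E _ _ E.toSubalgebra.algebra := by
  subst h
  exact hE

/-- **B1-RR for the concrete model**: `k` is algebraically closed and the component field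
`NmF (M p) A` satisfies the Riemann-Roch hypotheses. -/
theorem b1_rrHyp_nmF (M p : ℕ) [NeZero M] [NeZero p] (hp : p.Prime) (hpM : ¬ p ∣ M)
    (A : ValuationSubring Qb) (hA : A.LiesOverPrime p) :
    IsAlgClosed (kRes A) ∧ Fermat.Agent.H58.RRHyp (kRes A) (NmF (M * p) A) := by
  haveI : Fact p.Prime := ⟨hp⟩
  obtain ⟨h1, h2⟩ := Fermat.Agent.H16.rrModLStatement M p hpM A hA
  exact ⟨h1, b1_rrHyp_of_eq _ _ (b1_nmResField_eq M p hp hpM A hA) h2⟩

/-! ### The remaining block statements -/

/-- **[NODES]** finitely many nodes, at least one. -/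
def NmNodesStatement (M p : ℕ) [NeZero M] [NeZero p] : Prop :=
  ∀ (A : ValuationSubring Qb) (h : NmSetup M p A),
    Finite (NmNode M p h.cop A) ∧ Nonempty (NmNode M p h.cop A)

/-- **[GENUS]** the count of the nodes: `g(X₀(M p)) + 1 = 2 g(X₀(M)_k) + s`. -/
def NmGenusEqStatement (M p : ℕ) [NeZero M] [NeZero p] : Prop :=
  ∀ (A : ValuationSubring Qb) (h : NmSetup M p A),
    genusFF Qb (FLb (M * p)) + 1 =
      genusFF (kRes A) (NmF (M * p) A) + genusFF (kRes A) (NmF (M * p) A) +
        Nat.card (NmNode M p h.cop A)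

/-! ### The adapter -/

/-- **B1-ASM, one place**: the standing hypotheses of all nodal blocks for `nmG`. -/
theorem b1_nodalSetup {M p : ℕ} [NeZero M] [NeZero p]
    (hR : NmRvHypStatement M p) (hG : NmGalHypStatement M p) (hL : NmLiftStatement M p)
    (hN : NmNodesStatement M p) (hE : NmGenusEqStatement M p)
    (A : ValuationSubring Qb) (h : NmSetup M p A) (htot : NmTot M p h.cop A) :
    Fermat.Agent.H72.ORD.NodalSetup (M * p) p A (NmF (M * p) A) (NmF (M * p) A)
      (NmNode M p h.cop A) (nmG htot) (genusFF Qb (FLb (M * p))) := by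
  have hpM : ¬ p ∣ M := fun hd =>
    h.prime.one_lt.ne' (Nat.Coprime.eq_one_of_dvd h.cop.symm hd)
  obtain ⟨hac, hrr⟩ := b1_rrHyp_nmF M p h.prime hpM A h.liesOver
  exact
    { prime := h.prime
      liesOver := h.liesOver
      algClosed := hac
      rv := hR A h htot
      gal := hG A h htot
      lift := hL A h htot
      finite_nodes := (hN A h).1
      nonempty_nodes := (hN A h).2
      pkgL := Fermat.Agent.H58.riemannPackage_of_rrHyp
        (Fermat.Agent.H58.rrHyp_modularFunctionFieldBar (M * p))
      rrOo := hrr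
      rrZero := hrr
      genus_eq := hE A h }

/-- **B1-ASM at the level `M p`**: helper72's contract from the block statements. -/
theorem b1_instance_mul {M p : ℕ} [NeZero M] [NeZero p] (hp : p.Prime) (hp2 : p ≠ 2)
    (hcop : Nat.Coprime M p) (h4 : 4 ∣ M)
    (hT : NmTotStatement M p) (hR : NmRvHypStatement M p) (hG : NmGalHypStatement M p)
    (hL : NmLiftStatement M p) (hN : NmNodesStatement M p) (hE : NmGenusEqStatement M p) :
    Fermat.Agent.H72.ORD.NodalInstanceStatement (M * p) p := by
  intro A hA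
  have h : NmSetup M p A :=
    { prime := hp, odd := hp2, cop := hcop, four := h4, liesOver := hA }
  exact ⟨NmF (M * p) A, NmF (M * p) A, inferInstance, inferInstance, inferInstance,
    inferInstance, NmNode M p h.cop A, nmG (hT A h), genusFF Qb (FLb (M * p)),
    b1_nodalSetup hR hG hL hN hE A h (hT A h)⟩

/-- The bundle of the block statements at the level `M p`. -/
structure NmBlocks (M p : ℕ) [NeZero M] [NeZero p] : Prop where
  tot : NmTotStatement M p
  rv : NmRvHypStatement M p
  gal : NmGalHypStatement M p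
  lift : NmLiftStatement M p
  nodes : NmNodesStatement M p
  genus : NmGenusEqStatement M p

/-- **B1-ASM, final form** = the hypothesis `hI` of `Fermat.Agent.H72.ORD.s33_of_blocks`, with the
auxiliary factor `m = 4`. -/
theorem b1_instance_all
    (hB : ∀ (M p : ℕ) [NeZero M] [NeZero p], p.Prime → p ≠ 2 → Nat.Coprime M p → 4 ∣ M →
      NmBlocks M p) :
    ∀ p : ℕ, p.Prime → p ≠ 2 → ∃ m : ℕ, m ≠ 0 ∧ Nat.Coprime p m ∧
      ∀ (N' : ℕ) [NeZero N'], p ∣ N' → ¬ p ^ 2 ∣ N' → m ∣ N' →
        Fermat.Agent.H72.ORD.NodalInstanceStatement N' p := by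
  intro p hp hp2
  have hcop4 : Nat.Coprime p 4 := by
    have h2 : Nat.Coprime p 2 := (Nat.coprime_primes hp Nat.prime_two).2 hp2
    exact Nat.Coprime.pow_right 2 h2
  refine ⟨4, by norm_num, hcop4, ?_⟩
  intro N' _ hpN hp2N h4N
  obtain ⟨M, rfl⟩ := hpN
  have hM0 : M ≠ 0 := by
    rintro rfl
    exact (NeZero.ne (p * 0)) (by simp)
  haveI : NeZero M := ⟨hM0⟩
  haveI : NeZero p := ⟨hp.ne_zero⟩
  have hpM : ¬ p ∣ M := by
    rintro ⟨M', rfl⟩
    exact hp2N ⟨M', by ring⟩
  have hcop : Nat.Coprime M p := ((Nat.Prime.coprime_iff_not_dvd hp).2 hpM).symm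
  have h4M : 4 ∣ M := (Nat.Coprime.dvd_mul_left hcop4.symm).1 h4N
  have hb := hB M p hp hp2 hcop h4M
  have key := b1_instance_mul hp hp2 hcop h4M hb.tot hb.rv hb.gal hb.lift hb.nodes hb.genus
  have e : M * p = p * M := mul_comm M p
  intro A hA
  obtain ⟨Foo, F0, i1, i2, i3, i4, ι, G, g, hS⟩ := key A hA
  revert G
  rw [e]
  intro G hS
  exact ⟨Foo, F0, i1, i2, i3, i4, ι, G, g, hS⟩

end Fermat.Agent.H92.ORD

end
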