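/-
P-ORD (S33), block B1-ANCHOR, step [BC](b) (helper92): SATURATION of the base change.

`ι : K₀ → ℚ̄` a number field, `A` a valuation subring of `ℚ̄`, `A₀ = A.comap ι` (a discrete
valuation ring), `bc = klBc ι : ModelField K₀ (M p) → FLb (M p)`, `S ⊆ ModelField K₀ (M p)` an
`A₀`-submodule contained in `V_∞ ∩ V_0` with `S ∩ 𝔪_∞ ∩ 𝔪_0 = ϖ S` (helper17's (L3), `modelPiB`).
`A₁ ⊆ A` a subring with total divisibility containing `ι A₀`.

`bcs_sat` : if `g = ∑ aᵢ bc(fᵢ)` (`aᵢ ∈ A₁`, `fᵢ ∈ S`) reduces to `0` at both `V_∞` and `V_0`,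
then `g = ε g'` with `ε ∈ A₁ ∩ 𝔪_A` and `g'` in the `A₁`-span of `bc S`.

Proof: induction on the number of terms.  If the residues `āᵢ` are linearly independent over
the residue field `k₀` of `A₀`, compare `q`-expansion coefficients: all `fᵢ` reduce to `0`, so
`fᵢ ∈ ϖ S`.  Otherwise eliminate one term modulo `𝔪_A`.
-/
import Fermat.Agent.H66.ORD.DescDict

set_option autoImplicit false
set_option maxSynthPendingDepth 3
set_option linter.unusedSectionVars false
set_option linter.unusedVariables false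
set_option linter.style.haveILetI false
set_option synthInstance.maxHeartbeats 400000
set_option maxHeartbeats 1600000

noncomputable section

namespace Fermat.Agent.H92.ORD

open ModularCurve AlgebraicCurve
open Fermat.Agent.H22.KL Fermat.Agent.H7.SS Fermat.Agent.H7.SS2 Fermat.Agent.H93.KL
open Fermat.Agent.H9.E6 Fermat.Agent.H66 Fermat.Agent.H66.SS Fermat.Agent.H84.ORD
open Fermat.Agent.H72.FF Fermat.Agent.H82.SS Fermat.Agent.H66.ORD

/-! ### Coefficientwise linear disjointness -/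

section Series

variable {k₀ k : Type} [Field k₀] [Field k] (φ : k₀ →+* k)

/-- If the `āᵢ ∈ k` are linearly independent over `k₀` and `∑ āᵢ rᵢ = 0` with `rᵢ ∈ k₀((q))`,
then all `rᵢ` vanish. -/
theorem bcs_series_indep {ι' : Type} (s : Finset ι') (ā : ι' → k) (r : ι' → LaurentSeries k₀)
    (hind : ∀ c : ι' → k₀, ∑ i ∈ s, φ (c i) * ā i = 0 → ∀ i ∈ s, c i = 0)
    (h : ∑ i ∈ s, algebraMap k (LaurentSeries k) (ā i) * coeffMap φ (r i) = 0) :
    ∀ i ∈ s, r i = 0 := by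
  intro i hi
  refine HahnSeries.ext (funext fun m => ?_)
  have h1 := congrArg (fun x : LaurentSeries k => x.coeff m) h
  simp only [HahnSeries.coeff_sum, algebraMap_laurentSeries_eq_single,
    HahnSeries.coeff_single_zero_mul, coeffMap_coeff, HahnSeries.coeff_zero] at h1
  have h2 : ∑ j ∈ s, φ ((r j).coeff m) * ā j = 0 := by
    rw [← h1]
    exact Finset.sum_congr rfl (fun j _ => mul_comm _ _)
  exact hind (fun j => (r j).coeff m) h2 i hi

end Series

/-! ### The maximal ideals of the two Gauss rings -/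

section Ideals

variable (N : ℕ) (A : ValuationSubring QBar)

/-- `g ∈ 𝔪_∞` : `g` lies in the Gauss ring at `∞` and reduces to `0`. -/
def InMoo (g : FLb N) : Prop := ∃ h : g ∈ gaussOBar N A, gaussRedBar N A ⟨g, h⟩ = 0

variable {N A}

theorem InMoo.mem {g : FLb N} (h : InMoo N A g) : g ∈ gaussOBar N A := h.1

theorem inMoo_zero : InMoo N A (0 : FLb N) :=
  ⟨(gaussOBar N A).zero_mem, map_zero (gaussRedBar N A)⟩

theorem InMoo.add {g g' : FLb N} (h : InMoo N A g) (h' : InMoo N A g') : InMoo N A (g + g') := by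
  obtain ⟨h1, h2⟩ := h
  obtain ⟨h1', h2'⟩ := h'
  refine ⟨(gaussOBar N A).add_mem h1 h1', ?_⟩
  have e : (⟨g + g', (gaussOBar N A).add_mem h1 h1'⟩ : ↥(gaussOBar N A)) =
      ⟨g, h1⟩ + ⟨g', h1'⟩ := rfl
  rw [e, map_add, h2, h2', add_zero]

theorem InMoo.neg {g : FLb N} (h : InMoo N A g) : InMoo N A (-g) := by
  obtain ⟨h1, h2⟩ := h
  refine ⟨(gaussOBar N A).neg_mem h1, ?_⟩
  have e : (⟨-g, (gaussOBar N A).neg_mem h1⟩ : ↥(gaussOBar N A)) = -⟨g, h1⟩ := rfl
  rw [e, map_neg, h2, neg_zero]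

theorem InMoo.sub {g g' : FLb N} (h : InMoo N A g) (h' : InMoo N A g') : InMoo N A (g - g') := by
  rw [sub_eq_add_neg]
  exact h.add h'.neg

theorem InMoo.mul_left {g x : FLb N} (h : InMoo N A g) (hx : x ∈ gaussOBar N A) :
    InMoo N A (x * g) := by
  obtain ⟨h1, h2⟩ := h
  refine ⟨(gaussOBar N A).mul_mem hx h1, ?_⟩
  have e : (⟨x * g, (gaussOBar N A).mul_mem hx h1⟩ : ↥(gaussOBar N A)) = ⟨x, hx⟩ * ⟨g, h1⟩ := rfl
  rw [e, map_mul, h2, mul_zero]

theorem InMoo.mul_right {g x : FLb N} (h : InMoo N A g) (hx : x ∈ gaussOBar N A) :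
    InMoo N A (g * x) := by
  have e : g * x = x * g := mul_comm g x
  rw [e]
  exact h.mul_left hx

/-- constants of `𝔪_A` lie in `𝔪_∞` -/
theorem inMoo_const {c : QBar} (hc : c ∈ A.nonunits) :
    InMoo N A (algebraMap QBar (FLb N) c) := by
  have hcA : c ∈ A := A.nonunits_le hc
  refine ⟨(algebraMap_mem_gaussOBar_iff N A c).2 hcA, ?_⟩
  rw [gaussRedBar_algebraMap N A hcA]
  have h0 : IsLocalRing.residue ↥A ⟨c, hcA⟩ = 0 := by
    rw [IsLocalRing.residue_eq_zero_iff]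
    exact (ValuationSubring.mem_nonunits_iff_exists_mem_maximalIdeal).1 hc |>.choose_spec
  rw [h0, map_zero]

end Ideals

/-! ### Independent residues : the terms reduce to zero -/

section Indep

variable {K₀ : Type} [Field K₀] [Algebra ℚ K₀] (ι : K₀ →+* QBar) (A : ValuationSubring QBar)
  [IsDiscreteValuationRing ↥(A.comap ι)] (N : ℕ)

/-- `bc f ∈ V_∞` for `f ∈ V_∞ (K₀)` -/
theorem bcs_bc_mem {f : ModelField K₀ N} (hf : f ∈ vInf K₀ ↥(A.comap ι) N) :
    klBc ι (modularFunctionFieldFull N) f ∈ gaussOBar N A :=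
  (bc_mem_gaussOBar_iff ι A N f).2 hf

/-- the reduction of `bc f` has coefficients in `k₀` -/
theorem bcs_red_bc {f : ModelField K₀ N} (hf : f ∈ vInf K₀ ↥(A.comap ι) N) :
    gaussRedBar N A ⟨klBc ι (modularFunctionFieldFull N) f, bcs_bc_mem ι A N hf⟩ =
      coeffMap (resMap ι A) (vGaussRed (A.comap ι)
        ⟨(f : LaurentSeries K₀), ord_mem_vGaussRing_of_inV ι A _ ((mem_vInf_iff f).1 hf)⟩) := by
  rw [gaussRedBar_apply]
  exact vGaussRed_coeffMap ι A (ord_mem_vGaussRing_of_inV ι A _ ((mem_vInf_iff f).1 hf))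

/-- **Independent residues.**  If the residues of the `aᵢ ∈ A` are linearly independent over the
residue field of `A ∩ K₀` and `∑ aᵢ bc(fᵢ) ∈ 𝔪_∞` with `fᵢ ∈ V_∞ (K₀)`, then all `fᵢ ∈ 𝔪_∞ (K₀)`. -/
theorem bcs_indep_oo {ι' : Type} (s : Finset ι') (a : ι' → QBar)
    (f : ι' → ModelField K₀ N) (ha : ∀ i, a i ∈ A) (hf : ∀ i, f i ∈ vInf K₀ ↥(A.comap ι) N)
    (hind : ∀ c : ι' → IsLocalRing.ResidueField ↥(A.comap ι),
      ∑ i ∈ s, resMap ι A (c i) * IsLocalRing.residue ↥A ⟨a i, ha i⟩ = 0 → ∀ i ∈ s, c i = 0)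
    (hg : InMoo N A (∑ i ∈ s, algebraMap QBar (FLb N) (a i) *
      klBc ι (modularFunctionFieldFull N) (f i))) :
    ∀ i ∈ s, f i ∈ (vInf K₀ ↥(A.comap ι) N).nonunits := by
  classical
  obtain ⟨h, hred⟩ := hg
  -- the terms as elements of the Gauss ring
  let u : ι' → ↥(gaussOBar N A) := fun i =>
    ⟨algebraMap QBar (FLb N) (a i), (algebraMap_mem_gaussOBar_iff N A (a i)).2 (ha i)⟩ *
      ⟨klBc ι (modularFunctionFieldFull N) (f i), bcs_bc_mem ι A N (hf i)⟩
  have hsum : (⟨_, h⟩ : ↥(gaussOBar N A)) = ∑ i ∈ s, u i := by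
    apply Subtype.ext
    rw [AddSubmonoidClass.coe_finsetSum]
    rfl
  rw [hsum, map_sum] at hred
  have hterm : ∀ i, gaussRedBar N A (u i) =
      algebraMap _ (LaurentSeries (IsLocalRing.ResidueField ↥A))
        (IsLocalRing.residue ↥A ⟨a i, ha i⟩) *
      coeffMap (resMap ι A) (vGaussRed (A.comap ι)
        ⟨(f i : LaurentSeries K₀),
          ord_mem_vGaussRing_of_inV ι A _ ((mem_vInf_iff (f i)).1 (hf i))⟩) := by
    intro i
    show gaussRedBar N A (_ * _) = _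
    rw [map_mul, gaussRedBar_algebraMap N A (ha i), bcs_red_bc ι A N (hf i)]
  rw [Finset.sum_congr rfl (fun i _ => hterm i)] at hred
  have hr := bcs_series_indep (resMap ι A) s (fun i => IsLocalRing.residue ↥A ⟨a i, ha i⟩)
    (fun i => vGaussRed (A.comap ι) ⟨(f i : LaurentSeries K₀),
      ord_mem_vGaussRing_of_inV ι A _ ((mem_vInf_iff (f i)).1 (hf i))⟩) hind hred
  intro i hi
  rw [← bc_gaussRedBar_eq_zero_iff ι A N (f i) (bcs_bc_mem ι A N (hf i)),
    bcs_red_bc ι A N (hf i), hr i hi, map_zero]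

end Indep

/-! ### The maximal ideal of the Gauss ring at `0` -/

section Zero

variable (M p : ℕ) [NeZero M] [NeZero p] (hcop : Nat.Coprime M p) (A : ValuationSubring QBar)

/-- `g ∈ 𝔪_0` : `g` lies in the Gauss ring at `0` and reduces to `0`. -/
def InMzero (g : FLb (M * p)) : Prop :=
  ∃ h : g ∈ nmV0 M p hcop A, nmRed0 M p hcop A ⟨g, h⟩ = 0

variable {M p hcop A}

theorem inMzero_iff (g : FLb (M * p)) :
    InMzero M p hcop A g ↔ InMoo (M * p) A (nmW M p hcop g) := by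
  constructor
  · rintro ⟨h, hr⟩
    refine ⟨h, ?_⟩
    rw [nmRed0_apply, nmRedOo_eq_zero_iff] at hr
    exact hr
  · rintro ⟨h, hr⟩
    refine ⟨h, ?_⟩
    rw [nmRed0_apply, nmRedOo_eq_zero_iff]
    exact hr

end Zero

/-! ### Saturation -/

section Sat

variable (M p : ℕ) [NeZero M] [NeZero p] (hcop : Nat.Coprime M p)
  {K₀ : Type} [Field K₀] [Algebra ℚ K₀] (ι : K₀ →+* QBar) (A : ValuationSubring QBar)
  [IsDiscreteValuationRing ↥(A.comap ι)]
  (W₁ : ModelField K₀ (M * p) ≃ₐ[K₀] ModelField K₀ (M * p))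
  (hW₁ : ∀ f, klBc ι (modularFunctionFieldFull (M * p)) (W₁ f) =
    nmW M p hcop (klBc ι (modularFunctionFieldFull (M * p)) f))

/-- the `A₁`-span of the base change of `S` -/
def bcSpan (A₁ : Subring QBar) (S : Set (ModelField K₀ (M * p))) :
    Submodule ↥A₁ (FLb (M * p)) :=
  Submodule.span ↥A₁ ((fun f => (klBc ι (modularFunctionFieldFull (M * p)) f : FLb (M * p))) '' S)

theorem bc_mem_bcSpan (A₁ : Subring QBar) (S : Set (ModelField K₀ (M * p)))
    {f : ModelField K₀ (M * p)} (hf : f ∈ S) :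
    (klBc ι (modularFunctionFieldFull (M * p)) f : FLb (M * p)) ∈ bcSpan M p ι A₁ S :=
  Submodule.subset_span ⟨f, hf, rfl⟩

theorem const_mul_mem_bcSpan (A₁ : Subring QBar) (S : Set (ModelField K₀ (M * p)))
    {u : QBar} (hu : u ∈ A₁) {x : FLb (M * p)} (hx : x ∈ bcSpan M p ι A₁ S) :
    algebraMap QBar (FLb (M * p)) u * x ∈ bcSpan M p ι A₁ S := by
  have h := Submodule.smul_mem (bcSpan M p ι A₁ S) (⟨u, hu⟩ : ↥A₁) hx
  rwa [Subring.smul_def, Algebra.smul_def] at h

/-- the combination `∑ aᵢ bc(fᵢ)` -/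
def bcComb {ι' : Type} (s : Finset ι') (a : ι' → QBar) (f : ι' → ModelField K₀ (M * p)) :
    FLb (M * p) :=
  ∑ i ∈ s, algebraMap QBar (FLb (M * p)) (a i) * klBc ι (modularFunctionFieldFull (M * p)) (f i)

theorem bcComb_mem_bcSpan (A₁ : Subring QBar) (S : Set (ModelField K₀ (M * p)))
    {ι' : Type} (s : Finset ι') (a : ι' → QBar) (f : ι' → ModelField K₀ (M * p))
    (ha : ∀ i ∈ s, a i ∈ A₁) (hf : ∀ i ∈ s, f i ∈ S) :
    bcComb M p ι s a f ∈ bcSpan M p ι A₁ S :=
  Submodule.sum_mem _ (fun i hi =>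
    const_mul_mem_bcSpan M p ι A₁ S (ha i hi) (bc_mem_bcSpan M p ι A₁ S (hf i hi)))

include hW₁ in
theorem nmW_bcComb {ι' : Type} (s : Finset ι') (a : ι' → QBar)
    (f : ι' → ModelField K₀ (M * p)) :
    nmW M p hcop (bcComb M p ι s a f) = bcComb M p ι s a (fun i => W₁ (f i)) := by
  unfold bcComb
  rw [map_sum]
  refine Finset.sum_congr rfl (fun i _ => ?_)
  rw [map_mul, AlgEquiv.commutes, hW₁]

include hW₁ in
/-- **SATURATION**, inductive form. -/
theorem bcs_sat_aux (S : Set (ModelField K₀ (M * p)))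
    (hadd : ∀ x ∈ S, ∀ y ∈ S, x + y ∈ S)
    (hsmul : ∀ c : K₀, ι c ∈ A → ∀ x ∈ S,
      algebraMap K₀ (ModelField K₀ (M * p)) c * x ∈ S)
    (hoo : ∀ x ∈ S, x ∈ vInf K₀ ↥(A.comap ι) (M * p))
    (hzr : ∀ x ∈ S, x ∈ vZero K₀ ↥(A.comap ι) (M * p) W₁)
    (ϖ : K₀) (hϖ : ι ϖ ∈ A.nonunits)
    (hL3 : ∀ z ∈ S, z ∈ (vInf K₀ ↥(A.comap ι) (M * p)).nonunits →
      z ∈ (vZero K₀ ↥(A.comap ι) (M * p) W₁).nonunits →
      ∃ c ∈ S, z = algebraMap K₀ (ModelField K₀ (M * p)) ϖ * c)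
    (A₁ : Subring QBar) (hA₁ : ∀ x ∈ A₁, x ∈ A) (hιA₁ : ∀ x : K₀, ι x ∈ A → ι x ∈ A₁)
    (htot : ∀ x ∈ A₁, ∀ y ∈ A₁, (∃ u ∈ A₁, x = y * u) ∨ (∃ u ∈ A₁, y = x * u))
    {ι' : Type} [DecidableEq ι'] :
    ∀ (n : ℕ) (s : Finset ι'), s.card = n →
      ∀ (a : ι' → QBar) (f : ι' → ModelField K₀ (M * p)), (∀ i, a i ∈ A₁) → (∀ i, f i ∈ S) →
        InMoo (M * p) A (bcComb M p ι s a f) → InMzero M p hcop A (bcComb M p ι s a f) →
        ∃ ε ∈ A₁, ε ∈ A.nonunits ∧ ∃ g' ∈ bcSpan M p ι A₁ S,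
          bcComb M p ι s a f = algebraMap QBar (FLb (M * p)) ε * g' := by
  intro n
  induction n with
  | zero =>
    intro s hs a f _ _ _ _
    rw [Finset.card_eq_zero] at hs
    refine ⟨0, A₁.zero_mem, ?_, 0, Submodule.zero_mem _, ?_⟩
    · rw [ValuationSubring.mem_nonunits_iff, map_zero]
      exact zero_lt_one
    · rw [hs, mul_zero]
      rfl
  | succ n ih =>
    intro s hs a f ha hf hgoo hgz
    have haA : ∀ i, a i ∈ A := fun i => hA₁ _ (ha i)
    by_cases hind : ∀ c : ι' → IsLocalRing.ResidueField ↥(A.comap ι),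
        ∑ i ∈ s, resMap ι A (c i) * IsLocalRing.residue ↥A ⟨a i, haA i⟩ = 0 → ∀ i ∈ s, c i = 0
    · -- independent residues: every term is divisible by `ϖ`
      have h1 := bcs_indep_oo ι A (M * p) s a f haA (fun i => hoo _ (hf i)) hind hgoo
      have hgz' := (inMzero_iff _).1 hgz
      rw [nmW_bcComb M p hcop ι W₁ hW₁] at hgz'
      have h2 := bcs_indep_oo ι A (M * p) s a (fun i => W₁ (f i)) haA
        (fun i => (mem_vZero_iff W₁ (f i)).1 (hzr _ (hf i))) hind hgz'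
      have h3 : ∀ i, ∃ c ∈ S, i ∈ s → f i = algebraMap K₀ (ModelField K₀ (M * p)) ϖ * c := by
        intro i
        by_cases hi : i ∈ s
        · obtain ⟨c, hc, hcf⟩ := hL3 (f i) (hf i) (h1 i hi)
            ((mem_nonunits_vZero_iff W₁ (f i)).2 (h2 i hi))
          exact ⟨c, hc, fun _ => hcf⟩
        · exact ⟨f i, hf i, fun h => absurd h hi⟩
      choose c hcS hcf using h3
      refine ⟨ι ϖ, hιA₁ ϖ (A.nonunits_le hϖ), hϖ, bcComb M p ι s a c,
        bcComb_mem_bcSpan M p ι A₁ S s a c (fun i _ => ha i) (fun i _ => hcS i), ?_⟩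
      unfold bcComb
      rw [Finset.mul_sum]
      refine Finset.sum_congr rfl (fun i hi => ?_)
      rw [hcf i hi, map_mul, Fermat.Agent.H62.SS.klBc_algebraMap']
      ring
    · -- dependent residues: eliminate one term
      push Not at hind
      obtain ⟨c, hc, i₀, hi₀, hci₀⟩ := hind
      -- lifts of the coefficients `- c i / c i₀`
      have hD : ∀ i, ∃ D : ↥(A.comap ι), IsLocalRing.residue ↥(A.comap ι) D = -(c i) / c i₀ :=
        fun i => IsLocalRing.residue_surjective _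
      choose D hDr using hD
      have hDA : ∀ i, ι (D i : K₀) ∈ A := fun i => (D i).2
      -- the small constant
      obtain ⟨ε', hε'⟩ : ∃ ε' : QBar, ε' = a i₀ - ∑ i ∈ s.erase i₀, ι (D i : K₀) * a i :=
        ⟨_, rfl⟩
      have hε'A₁ : ε' ∈ A₁ := by
        rw [hε']
        exact A₁.sub_mem (ha i₀) (A₁.sum_mem (fun i _ => A₁.mul_mem (hιA₁ _ (hDA i)) (ha i)))
      have hε'A : ε' ∈ A := hA₁ _ hε'A₁
      have hres : IsLocalRing.residue ↥A ⟨ε', hε'A⟩ = 0 := by
        have e : (⟨ε', hε'A⟩ : ↥A) = ⟨a i₀, haA i₀⟩ -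
            ∑ i ∈ s.erase i₀, (⟨ι (D i : K₀), hDA i⟩ : ↥A) * ⟨a i, haA i⟩ := by
          apply Subtype.ext
          show ε' = _
          rw [hε']
          simp [AddSubgroupClass.coe_sub, AddSubmonoidClass.coe_finsetSum]
        rw [e, map_sub, map_sum]
        have e2 : ∀ i, IsLocalRing.residue ↥A ((⟨ι (D i : K₀), hDA i⟩ : ↥A) * ⟨a i, haA i⟩) =
            resMap ι A (-(c i) / c i₀) * IsLocalRing.residue ↥A ⟨a i, haA i⟩ := by
          intro i
          rw [map_mul, ← hDr i, resMap_residue]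
          rfl
        rw [Finset.sum_congr rfl (fun i _ => e2 i)]
        have hc' := hc
        rw [← Finset.add_sum_erase s _ hi₀] at hc'
        have hφ : resMap ι A (c i₀) ≠ 0 := by
          rw [Ne, map_eq_zero]
          exact hci₀
        have e3 : ∀ i, resMap ι A (-(c i) / c i₀) * IsLocalRing.residue ↥A ⟨a i, haA i⟩ =
            -(resMap ι A (c i) * IsLocalRing.residue ↥A ⟨a i, haA i⟩) / resMap ι A (c i₀) := by
          intro i
          rw [map_div₀, map_neg]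
          ring
        rw [Finset.sum_congr rfl (fun i _ => e3 i), ← Finset.sum_div, Finset.sum_neg_distrib]
        have e4 : ∑ i ∈ s.erase i₀, resMap ι A (c i) * IsLocalRing.residue ↥A ⟨a i, haA i⟩ =
            -(resMap ι A (c i₀) * IsLocalRing.residue ↥A ⟨a i₀, haA i₀⟩) := by
          rw [eq_neg_iff_add_eq_zero, add_comm]
          exact hc'
        rw [e4, neg_neg, mul_div_assoc, mul_comm, div_mul_cancel₀]
        · exact sub_self _
        · exact hφ
      have hε'm : ε' ∈ A.nonunits := by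
        rw [ValuationSubring.mem_nonunits_iff_exists_mem_maximalIdeal]
        exact ⟨hε'A, (IsLocalRing.residue_eq_zero_iff _).1 hres⟩
      -- the new family
      obtain ⟨f', hf'⟩ : ∃ f' : ι' → ModelField K₀ (M * p), f' = fun i =>
        f i + algebraMap K₀ (ModelField K₀ (M * p)) (D i : K₀) * f i₀ := ⟨_, rfl⟩
      have hf'S : ∀ i, f' i ∈ S := by
        intro i
        rw [hf']
        exact hadd _ (hf i) _ (hsmul _ (hDA i) _ (hf i₀))
      have hkey : bcComb M p ι s a f = bcComb M p ι (s.erase i₀) a f' +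
          algebraMap QBar (FLb (M * p)) ε' * klBc ι (modularFunctionFieldFull (M * p)) (f i₀) := by
        unfold bcComb
        rw [← Finset.add_sum_erase s _ hi₀, hε', map_sub, map_sum, sub_mul, Finset.sum_mul]
        have e5 : ∀ i ∈ s.erase i₀, algebraMap QBar (FLb (M * p)) (a i) *
            klBc ι (modularFunctionFieldFull (M * p)) (f' i) =
            algebraMap QBar (FLb (M * p)) (a i) * klBc ι (modularFunctionFieldFull (M * p)) (f i) +
            algebraMap QBar (FLb (M * p)) (ι (D i : K₀) * a i) *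
              klBc ι (modularFunctionFieldFull (M * p)) (f i₀) := by
          intro i _
          rw [hf', map_add, map_mul, Fermat.Agent.H62.SS.klBc_algebraMap', map_mul]
          ring
        rw [Finset.sum_congr rfl e5, Finset.sum_add_distrib]
        ring
      -- the small term lies in both maximal ideals
      have hsmall : InMoo (M * p) A (algebraMap QBar (FLb (M * p)) ε' *
          klBc ι (modularFunctionFieldFull (M * p)) (f i₀)) :=
        (inMoo_const hε'm).mul_right (bcs_bc_mem ι A (M * p) (hoo _ (hf i₀)))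
      have hsmall0 : InMzero M p hcop A (algebraMap QBar (FLb (M * p)) ε' *
          klBc ι (modularFunctionFieldFull (M * p)) (f i₀)) := by
        rw [inMzero_iff, map_mul, AlgEquiv.commutes, ← hW₁]
        exact (inMoo_const hε'm).mul_right
          (bcs_bc_mem ι A (M * p) ((mem_vZero_iff W₁ (f i₀)).1 (hzr _ (hf i₀))))
      have hg1 : bcComb M p ι (s.erase i₀) a f' = bcComb M p ι s a f -
          algebraMap QBar (FLb (M * p)) ε' *
            klBc ι (modularFunctionFieldFull (M * p)) (f i₀) := by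
        rw [hkey]
        ring
      have hg1oo : InMoo (M * p) A (bcComb M p ι (s.erase i₀) a f') := by
        rw [hg1]
        exact hgoo.sub hsmall
      have hg1z : InMzero M p hcop A (bcComb M p ι (s.erase i₀) a f') := by
        rw [hg1, inMzero_iff, map_sub]
        exact ((inMzero_iff _).1 hgz).sub ((inMzero_iff _).1 hsmall0)
      have hcard : (s.erase i₀).card = n := by
        rw [Finset.card_erase_of_mem hi₀, hs]
        rfl
      obtain ⟨ε₁, hε₁A₁, hε₁m, g₁, hg₁, hg₁eq⟩ := ih (s.erase i₀) hcard a f' ha hf'S hg1oo hg1z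
      have hbS : (klBc ι (modularFunctionFieldFull (M * p)) (f i₀) : FLb (M * p)) ∈
          bcSpan M p ι A₁ S := bc_mem_bcSpan M p ι A₁ S (hf i₀)
      rcases htot ε₁ hε₁A₁ ε' hε'A₁ with ⟨u, hu, hε⟩ | ⟨u, hu, hε⟩
      · -- `ε₁ = ε' u`
        refine ⟨ε', hε'A₁, hε'm,
          algebraMap QBar (FLb (M * p)) u * g₁ +
            klBc ι (modularFunctionFieldFull (M * p)) (f i₀),
          Submodule.add_mem _ (const_mul_mem_bcSpan M p ι A₁ S hu hg₁) hbS, ?_⟩
        rw [hkey, hg₁eq, hε, map_mul]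
        ring
      · -- `ε' = ε₁ u`
        refine ⟨ε₁, hε₁A₁, hε₁m,
          g₁ + algebraMap QBar (FLb (M * p)) u *
            klBc ι (modularFunctionFieldFull (M * p)) (f i₀),
          Submodule.add_mem _ hg₁ (const_mul_mem_bcSpan M p ι A₁ S hu hbS), ?_⟩
        rw [hkey, hg₁eq, hε, map_mul]
        ring

include hW₁ in
/-- **SATURATION.**  An element of the `A₁`-span of `bc S` which reduces to `0` at `V_∞` and at
`V_0` is `ε g'` with `ε ∈ A₁ ∩ 𝔪_A` and `g'` in the `A₁`-span of `bc S`. -/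
theorem bcs_sat (S : Set (ModelField K₀ (M * p)))
    (hadd : ∀ x ∈ S, ∀ y ∈ S, x + y ∈ S)
    (hsmul : ∀ c : K₀, ι c ∈ A → ∀ x ∈ S,
      algebraMap K₀ (ModelField K₀ (M * p)) c * x ∈ S)
    (hoo : ∀ x ∈ S, x ∈ vInf K₀ ↥(A.comap ι) (M * p))
    (hzr : ∀ x ∈ S, x ∈ vZero K₀ ↥(A.comap ι) (M * p) W₁)
    (ϖ : K₀) (hϖ : ι ϖ ∈ A.nonunits)
    (hL3 : ∀ z ∈ S, z ∈ (vInf K₀ ↥(A.comap ι) (M * p)).nonunits →
      z ∈ (vZero K₀ ↥(A.comap ι) (M * p) W₁).nonunits →
      ∃ c ∈ S, z = algebraMap K₀ (ModelField K₀ (M * p)) ϖ * c)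
    (A₁ : Subring QBar) (hA₁ : ∀ x ∈ A₁, x ∈ A) (hιA₁ : ∀ x : K₀, ι x ∈ A → ι x ∈ A₁)
    (htot : ∀ x ∈ A₁, ∀ y ∈ A₁, (∃ u ∈ A₁, x = y * u) ∨ (∃ u ∈ A₁, y = x * u))
    (g : FLb (M * p)) (hg : g ∈ bcSpan M p ι A₁ S)
    (hgoo : InMoo (M * p) A g) (hgz : InMzero M p hcop A g) :
    ∃ ε ∈ A₁, ε ∈ A.nonunits ∧ ∃ g' ∈ bcSpan M p ι A₁ S,
      g = algebraMap QBar (FLb (M * p)) ε * g' := by
  classical
  obtain ⟨n, c, y, hsum⟩ := Submodule.mem_span_set'.1 hg
  have hy : ∀ i, ∃ f ∈ S, (klBc ι (modularFunctionFieldFull (M * p)) f : FLb (M * p)) = y i :=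
    fun i => (y i).2
  choose f hfS hfy using hy
  have hcomb : bcComb M p ι Finset.univ (fun i => (c i : QBar)) f = g := by
    rw [← hsum]
    unfold bcComb
    refine Finset.sum_congr rfl (fun i _ => ?_)
    rw [hfy i, Subring.smul_def, Algebra.smul_def]
  rw [← hcomb] at hgoo hgz ⊢
  exact bcs_sat_aux M p hcop ι A W₁ hW₁ S hadd hsmul hoo hzr ϖ hϖ hL3 A₁ hA₁ hιA₁ htot
    _ Finset.univ rfl (fun i => (c i : QBar)) f (fun i => (c i).2) hfS hgoo hgz

theorem bcSpan_mono {A₁ A₂ : Subring QBar} (h : A₁ ≤ A₂) (S : Set (ModelField K₀ (M * p)))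
    {x : FLb (M * p)} (hx : x ∈ bcSpan M p ι A₁ S) : x ∈ bcSpan M p ι A₂ S := by
  unfold bcSpan at hx
  induction hx using Submodule.span_induction with
  | mem x hx => exact Submodule.subset_span hx
  | zero => exact Submodule.zero_mem _
  | add x y _ _ hx hy => exact Submodule.add_mem _ hx hy
  | smul a x _ hx =>
    rw [Subring.smul_def, Algebra.smul_def]
    exact const_mul_mem_bcSpan M p ι A₂ S (h a.2) hx

end Sat

end Fermat.Agent.H92.ORD

end
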