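/-
P-ORD (S33), block B1-ANCHOR, steps [BC] and [L3bar] (helper92).

`K₀ ⊆ ℚ̄` a number field, `A` a valuation subring of `ℚ̄` over `ℓ`, `bc = klBc : ModelField K₀ (M p)
→ FLb (M p)`, `S ⊆ ModelField K₀ (M p)` as in `Fermat.Agent.H92.ORD.bcs_sat`.

* `bcs_l3bar` **[L3bar]** : an element of the `A`-span of `bc S` reducing to `0` at `V_∞` and at
  `V_0` lies in `𝔪_A · (A-span of bc S)`;
* `bcs_baseChange` **[BC]** : if `f ∈ V_∞ ∩ V_0` and `c f` lies in the `A`-span of `bc S` for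
  some `c ≠ 0` in `A` (GENERIC part (a)), then `f` lies in the `A`-span of `bc S`.
  Proof: everything lives over a number field `K'`, `A ∩ K'` is a discrete valuation ring with
  uniformiser `π`, `c = u π ^ e`; by saturation `π ^ (e + 1) f ∈ span ⟹ π ^ e f ∈ span`.
-/
import Fermat.Agent.H92.ORD.BcSat

set_option autoImplicit false
set_option maxSynthPendingDepth 3
set_option linter.unusedSectionVars false
set_option linter.unusedVariables false
set_option linter.style.haveILetI false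
set_option synthInstance.maxHeartbeats 400000
set_option maxHeartbeats 1600000

noncomputable section

namespace Fermat.Agent.H92.ORD

open ModularCurve AlgebraicCurve
open Fermat.Agent.H22.KL Fermat.Agent.H7.SS Fermat.Agent.H7.SS2 Fermat.Agent.H93.KL
open Fermat.Agent.H9.E6 Fermat.Agent.H66 Fermat.Agent.H66.SS Fermat.Agent.H84.ORD
open Fermat.Agent.H72.FF Fermat.Agent.H82.SS Fermat.Agent.H66.ORD

/-! ### The subring `A ∩ K'` -/

section Sub

variable (A : ValuationSubring QBar) (K' : IntermediateField ℚ QBar)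

/-- `A ∩ K'` as a subring of `ℚ̄` -/
def subAK : Subring QBar := A.toSubring ⊓ K'.toSubfield.toSubring

theorem mem_subAK {x : QBar} : x ∈ subAK A K' ↔ x ∈ A ∧ x ∈ K' := Iff.rfl

/-- total divisibility in `A ∩ K'` -/
theorem subAK_total : ∀ x ∈ subAK A K', ∀ y ∈ subAK A K',
    (∃ u ∈ subAK A K', x = y * u) ∨ (∃ u ∈ subAK A K', y = x * u) := by
  rintro x ⟨hxA, hxK⟩ y ⟨hyA, hyK⟩
  by_cases hy : y = 0
  · exact Or.inr ⟨0, (subAK A K').zero_mem, by rw [hy, mul_zero]⟩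
  by_cases hx : x = 0
  · exact Or.inl ⟨0, (subAK A K').zero_mem, by rw [hx, mul_zero]⟩
  rcases A.mem_or_inv_mem (x / y) with h | h
  · exact Or.inl ⟨x / y, ⟨h, K'.div_mem hxK hyK⟩, by field_simp⟩
  · refine Or.inr ⟨y / x, ⟨?_, K'.div_mem hyK hxK⟩, by field_simp⟩
    rwa [inv_div] at h

/-- total divisibility in `A` -/
theorem subA_total : ∀ x ∈ A.toSubring, ∀ y ∈ A.toSubring,
    (∃ u ∈ A.toSubring, x = y * u) ∨ (∃ u ∈ A.toSubring, y = x * u) := by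
  intro x hxA y hyA
  by_cases hy : y = 0
  · exact Or.inr ⟨0, A.toSubring.zero_mem, by rw [hy, mul_zero]⟩
  by_cases hx : x = 0
  · exact Or.inl ⟨0, A.toSubring.zero_mem, by rw [hx, mul_zero]⟩
  rcases A.mem_or_inv_mem (x / y) with h | h
  · exact Or.inl ⟨x / y, h, by field_simp⟩
  · refine Or.inr ⟨y / x, ?_, by field_simp⟩
    rwa [inv_div] at h

variable [IsDiscreteValuationRing ↥(A.comap (algebraMap ↥K' QBar))]

/-- the inclusion `A ∩ K' → ℚ̄` -/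
def subAKHom : ↥(A.comap (algebraMap ↥K' QBar)) →+* QBar :=
  (algebraMap ↥K' QBar).comp (A.comap (algebraMap ↥K' QBar)).subtype

theorem subAKHom_mem (z : ↥(A.comap (algebraMap ↥K' QBar))) : subAKHom A K' z ∈ subAK A K' :=
  ⟨z.2, (z : ↥K').2⟩

/-- elements of `A ∩ K'` in `𝔪_A` are divisible by the uniformiser -/
theorem subAK_dvd (ϖ' : ↥(A.comap (algebraMap ↥K' QBar))) (hϖ' : Irreducible ϖ')
    {ε : QBar} (hε : ε ∈ subAK A K') (hεm : ε ∈ A.nonunits) :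
    ∃ u ∈ subAK A K', ε = subAKHom A K' ϖ' * u := by
  obtain ⟨hεA, hεK⟩ := hε
  let e₀ : ↥(A.comap (algebraMap ↥K' QBar)) := ⟨⟨ε, hεK⟩, hεA⟩
  have he₀ : subAKHom A K' e₀ = ε := rfl
  have hnu : e₀ ∈ IsLocalRing.maximalIdeal ↥(A.comap (algebraMap ↥K' QBar)) := by
    rw [IsLocalRing.mem_maximalIdeal, mem_nonunits_iff]
    intro hu
    have h1 : IsUnit (comapHom (algebraMap ↥K' QBar) A e₀) := hu.map _
    obtain ⟨ha, hmax⟩ := ValuationSubring.mem_nonunits_iff_exists_mem_maximalIdeal.1 hεm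
    rw [IsLocalRing.mem_maximalIdeal, mem_nonunits_iff] at hmax
    exact hmax h1
  rw [hϖ'.maximalIdeal_eq, Ideal.mem_span_singleton'] at hnu
  obtain ⟨u₀, hu₀⟩ := hnu
  refine ⟨subAKHom A K' u₀, subAKHom_mem A K' u₀, ?_⟩
  rw [← he₀, ← hu₀, map_mul, mul_comm]

/-- nonzero elements of `A ∩ K'` are `unit × πᵉ` -/
theorem subAK_pow (ϖ' : ↥(A.comap (algebraMap ↥K' QBar))) (hϖ' : Irreducible ϖ')
    {c : QBar} (hc : c ∈ subAK A K') (hc0 : c ≠ 0) :
    ∃ (e : ℕ) (u : QBar), u ∈ subAK A K' ∧ u⁻¹ ∈ subAK A K' ∧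
      c = u * subAKHom A K' ϖ' ^ e := by
  obtain ⟨hcA, hcK⟩ := hc
  let c₀ : ↥(A.comap (algebraMap ↥K' QBar)) := ⟨⟨c, hcK⟩, hcA⟩
  have hcc : subAKHom A K' c₀ = c := rfl
  have hc₀ : c₀ ≠ 0 := by
    intro h
    apply hc0
    rw [← hcc, h, map_zero]
  obtain ⟨e, u, hu⟩ := IsDiscreteValuationRing.eq_unit_mul_pow_irreducible hc₀ hϖ'
  have h1 : subAKHom A K' (u : ↥(A.comap (algebraMap ↥K' QBar))) *
      subAKHom A K' ((u⁻¹ : (↥(A.comap (algebraMap ↥K' QBar)))ˣ) :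
        ↥(A.comap (algebraMap ↥K' QBar))) = 1 := by
    rw [← map_mul, Units.mul_inv, map_one]
  refine ⟨e, subAKHom A K' (u : ↥(A.comap (algebraMap ↥K' QBar))), subAKHom_mem A K' _, ?_, ?_⟩
  · rw [← eq_inv_of_mul_eq_one_right h1]
    exact subAKHom_mem A K' _
  · rw [← hcc, hu, map_mul, map_pow]

end Sub

/-! ### [L3bar] and [BC] -/

section BC

variable (M p : ℕ) [NeZero M] [NeZero p] (hcop : Nat.Coprime M p)
  (K₀ : IntermediateField ℚ QBar) (A : ValuationSubring QBar)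
  [IsDiscreteValuationRing ↥(A.comap (algebraMap ↥K₀ QBar))]
  (W₁ : ModelField ↥K₀ (M * p) ≃ₐ[↥K₀] ModelField ↥K₀ (M * p))
  (hW₁ : ∀ f, klBc (algebraMap ↥K₀ QBar) (modularFunctionFieldFull (M * p)) (W₁ f) =
    nmW M p hcop (klBc (algebraMap ↥K₀ QBar) (modularFunctionFieldFull (M * p)) f))
  (S : Set (ModelField ↥K₀ (M * p)))
  (hadd : ∀ x ∈ S, ∀ y ∈ S, x + y ∈ S)
  (hsmul : ∀ c : ↥K₀, algebraMap ↥K₀ QBar c ∈ A → ∀ x ∈ S,
    algebraMap ↥K₀ (ModelField ↥K₀ (M * p)) c * x ∈ S)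
  (hoo : ∀ x ∈ S, x ∈ vInf ↥K₀ ↥(A.comap (algebraMap ↥K₀ QBar)) (M * p))
  (hzr : ∀ x ∈ S, x ∈ vZero ↥K₀ ↥(A.comap (algebraMap ↥K₀ QBar)) (M * p) W₁)
  (ϖ : ↥K₀) (hϖ : algebraMap ↥K₀ QBar ϖ ∈ A.nonunits)
  (hL3 : ∀ z ∈ S, z ∈ (vInf ↥K₀ ↥(A.comap (algebraMap ↥K₀ QBar)) (M * p)).nonunits →
    z ∈ (vZero ↥K₀ ↥(A.comap (algebraMap ↥K₀ QBar)) (M * p) W₁).nonunits →
    ∃ c ∈ S, z = algebraMap ↥K₀ (ModelField ↥K₀ (M * p)) ϖ * c)

include hW₁ hadd hsmul hoo hzr hϖ hL3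

/-- **[L3bar]** : `(A-span of bc S) ∩ 𝔪_∞ ∩ 𝔪_0 = 𝔪_A (A-span of bc S)`. -/
theorem bcs_l3bar (g : FLb (M * p))
    (hg : g ∈ bcSpan M p (algebraMap ↥K₀ QBar) A.toSubring S)
    (hgoo : InMoo (M * p) A g) (hgz : InMzero M p hcop A g) :
    ∃ ε ∈ A.nonunits, ∃ g' ∈ bcSpan M p (algebraMap ↥K₀ QBar) A.toSubring S,
      g = algebraMap QBar (FLb (M * p)) ε * g' := by
  obtain ⟨ε, -, hε, g', hg', h⟩ := bcs_sat M p hcop (algebraMap ↥K₀ QBar) A W₁ hW₁ S hadd hsmul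
    hoo hzr ϖ hϖ hL3 A.toSubring (fun x hx => hx) (fun x hx => hx) (subA_total A) g hg hgoo hgz
  exact ⟨ε, hε, g', hg', h⟩

/-- the descent step over the discrete valuation ring `A ∩ K'` -/
theorem bcs_descent (K' : IntermediateField ℚ QBar) (hK : K₀ ≤ K')
    [IsDiscreteValuationRing ↥(A.comap (algebraMap ↥K' QBar))]
    (ϖ' : ↥(A.comap (algebraMap ↥K' QBar))) (hϖ' : Irreducible ϖ')
    (f : FLb (M * p)) (hfoo : f ∈ gaussOBar (M * p) A) (hfz : f ∈ nmV0 M p hcop A) :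
    ∀ e : ℕ, algebraMap QBar (FLb (M * p)) (subAKHom A K' ϖ' ^ e) * f ∈
        bcSpan M p (algebraMap ↥K₀ QBar) (subAK A K') S →
      f ∈ bcSpan M p (algebraMap ↥K₀ QBar) (subAK A K') S := by
  have hπm : subAKHom A K' ϖ' ∈ A.nonunits := by
    rw [ValuationSubring.mem_nonunits_iff_exists_mem_maximalIdeal]
    refine ⟨ϖ'.2, ?_⟩
    rw [IsLocalRing.mem_maximalIdeal, mem_nonunits_iff]
    intro hu
    have h2 : IsUnit ϖ' :=
      (comapHom_isLocalHom (algebraMap ↥K' QBar) A).map_nonunit ϖ' hu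
    exact hϖ'.not_isUnit h2
  have hπ0 : subAKHom A K' ϖ' ≠ 0 := by
    intro h
    have h1 : (ϖ' : ↥K') = 0 := by
      have h2 : algebraMap ↥K' QBar (ϖ' : ↥K') = 0 := h
      exact (map_eq_zero _).1 h2
    exact hϖ'.ne_zero (Subtype.ext h1)
  intro e
  induction e with
  | zero =>
    intro h
    rwa [pow_zero, map_one, one_mul] at h
  | succ e ih =>
    intro h
    apply ih
    -- the element `π ^ (e + 1) f` lies in both maximal ideals
    have hm : subAKHom A K' ϖ' ^ (e + 1) ∈ A.nonunits := by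
      rw [pow_succ]
      rw [ValuationSubring.mem_nonunits_iff] at hπm ⊢
      rw [map_mul, map_pow]
      have h1 : A.valuation (subAKHom A K' ϖ') ^ e ≤ 1 := pow_le_one₀ zero_le hπm.le
      calc A.valuation (subAKHom A K' ϖ') ^ e * A.valuation (subAKHom A K' ϖ')
          ≤ 1 * A.valuation (subAKHom A K' ϖ') := by gcongr
        _ < 1 := by rwa [one_mul]
    have hgoo : InMoo (M * p) A
        (algebraMap QBar (FLb (M * p)) (subAKHom A K' ϖ' ^ (e + 1)) * f) :=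
      (inMoo_const hm).mul_right hfoo
    have hgz : InMzero M p hcop A
        (algebraMap QBar (FLb (M * p)) (subAKHom A K' ϖ' ^ (e + 1)) * f) := by
      rw [inMzero_iff, map_mul, AlgEquiv.commutes]
      exact (inMoo_const hm).mul_right hfz
    obtain ⟨ε, hεA₁, hεm, g', hg', hgeq⟩ := bcs_sat M p hcop (algebraMap ↥K₀ QBar) A W₁ hW₁ S
      hadd hsmul hoo hzr ϖ hϖ hL3 (subAK A K') (fun x hx => hx.1)
      (fun x hx => ⟨hx, hK x.2⟩) (subAK_total A K') _ h hgoo hgz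
    obtain ⟨u, hu, hεu⟩ := subAK_dvd A K' ϖ' hϖ' hεA₁ hεm
    have hcancel : algebraMap QBar (FLb (M * p)) (subAKHom A K' ϖ' ^ e) * f =
        algebraMap QBar (FLb (M * p)) u * g' := by
      have h0 : algebraMap QBar (FLb (M * p)) (subAKHom A K' ϖ') ≠ 0 := by
        rw [Ne, map_eq_zero]
        exact hπ0
      apply mul_left_cancel₀ h0
      rw [← mul_assoc, ← map_mul, ← pow_succ', hgeq, hεu, map_mul]
      ring
    rw [hcancel]
    exact const_mul_mem_bcSpan M p (algebraMap ↥K₀ QBar) (subAK A K') S hu hg'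

/-- **[BC] BASE CHANGE.**  If `f ∈ V_∞ ∩ V_0` and `c f = ∑ aᵢ bc(bᵢ)` with `c ≠ 0`, `c, aᵢ ∈ A`,
`bᵢ ∈ S`, then `f` lies in the `A`-span of `bc S`. -/
theorem bcs_baseChange [FiniteDimensional ℚ ↥K₀] (ℓ : ℕ) (hℓ0 : (ℓ : QBar) ≠ 0)
    (hA : A.LiesOverPrime ℓ)
    (f : FLb (M * p)) (hfoo : f ∈ gaussOBar (M * p) A) (hfz : f ∈ nmV0 M p hcop A)
    (c : QBar) (hc : c ∈ A) (hc0 : c ≠ 0) (n : ℕ) (a : Fin n → QBar)
    (b : Fin n → ModelField ↥K₀ (M * p)) (ha : ∀ i, a i ∈ A) (hb : ∀ i, b i ∈ S)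
    (hrep : algebraMap QBar (FLb (M * p)) c * f =
      ∑ i, algebraMap QBar (FLb (M * p)) (a i) *
        klBc (algebraMap ↥K₀ QBar) (modularFunctionFieldFull (M * p)) (b i)) :
    f ∈ bcSpan M p (algebraMap ↥K₀ QBar) A.toSubring S := by
  classical
  -- the number field `K'`
  let T : Set QBar := {c} ∪ Set.range a
  haveI : Finite T := Set.Finite.to_subtype
    ((Set.finite_singleton c).union (Set.finite_range a))
  haveI hfdT : FiniteDimensional ℚ ↥(IntermediateField.adjoin ℚ T) :=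
    IntermediateField.finiteDimensional_adjoin
      (fun x _ => ((AlgebraicClosure.isAlgebraic ℚ).isAlgebraic x).isIntegral)
  let K' : IntermediateField ℚ QBar := K₀ ⊔ IntermediateField.adjoin ℚ T
  haveI : FiniteDimensional ℚ ↥K' := inferInstance
  haveI : NumberField ↥K' := ordNumberField_of_fd ↥K'
  haveI : IsDiscreteValuationRing ↥(A.comap (algebraMap ↥K' QBar)) :=
    comap_isDiscreteValuationRing (algebraMap ↥K' QBar) A hℓ0 hA
  obtain ⟨ϖ', hϖ'⟩ := IsDiscreteValuationRing.exists_irreducible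
    ↥(A.comap (algebraMap ↥K' QBar))
  have hK : K₀ ≤ K' := le_sup_left
  have hTK : ∀ x ∈ T, x ∈ K' := fun x hx =>
    (le_sup_right : IntermediateField.adjoin ℚ T ≤ K') (IntermediateField.subset_adjoin ℚ T hx)
  have hcK : c ∈ subAK A K' := ⟨hc, hTK c (Or.inl rfl)⟩
  have haK : ∀ i, a i ∈ subAK A K' := fun i => ⟨ha i, hTK (a i) (Or.inr ⟨i, rfl⟩)⟩
  have hspan : algebraMap QBar (FLb (M * p)) c * f ∈
      bcSpan M p (algebraMap ↥K₀ QBar) (subAK A K') S := by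
    rw [hrep]
    exact bcComb_mem_bcSpan M p (algebraMap ↥K₀ QBar) (subAK A K') S Finset.univ a b
      (fun i _ => haK i) (fun i _ => hb i)
  obtain ⟨e, u, hu, hui, hcu⟩ := subAK_pow A K' ϖ' hϖ' hcK hc0
  have hu0 : u ≠ 0 := by
    rintro rfl
    rw [zero_mul] at hcu
    exact hc0 hcu
  have hpow : algebraMap QBar (FLb (M * p)) (subAKHom A K' ϖ' ^ e) * f ∈
      bcSpan M p (algebraMap ↥K₀ QBar) (subAK A K') S := by
    have e1 : algebraMap QBar (FLb (M * p)) (subAKHom A K' ϖ' ^ e) * f =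
        algebraMap QBar (FLb (M * p)) u⁻¹ * (algebraMap QBar (FLb (M * p)) c * f) := by
      rw [← mul_assoc, ← map_mul, hcu, ← mul_assoc, inv_mul_cancel₀ hu0, one_mul]
    rw [e1]
    exact const_mul_mem_bcSpan M p (algebraMap ↥K₀ QBar) (subAK A K') S hui hspan
  have hfin := bcs_descent M p hcop K₀ A W₁ hW₁ S hadd hsmul hoo hzr ϖ hϖ hL3 K' hK ϖ' hϖ'
    f hfoo hfz e hpow
  have hle : subAK A K' ≤ A.toSubring := fun x hx => ((mem_subAK A K').1 hx).1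
  exact bcSpan_mono M p (algebraMap ↥K₀ QBar) hle S hfin

end BC

end Fermat.Agent.H92.ORD

end
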