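/-
P-ORD, block B1-ANCHOR (helper92; findings #569): **[BC]** and **[FIN]** for the chart `j` of the
nodal model of `X₀(M p)`.

`K₀` a number field inside `ℚ̄`, `A₀ = A ∩ K₀`, `B₀ = chartClosure A₀ (ModelField K₀ (M p)) j₀`
the chart over `(K₀, A₀)`, `B̄ = nmChart (M p) A j` the chart over `(ℚ̄, A)`.

* `BcGenericAt M p A K₀` : the GENERIC base change (a) : every `f ∈ B̄` has
  `c f = ∑ aᵢ bc(bᵢ)` with `c ≠ 0`, `c, aᵢ ∈ A`, `bᵢ ∈ B₀`;
* `nmChartBc` : **[BC]** `B̄ = A · bc(B₀)` from (a) (saturation `bcs_baseChange`);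
* `nmChartFin` : **[FIN]** `B̄` is spanned over `A[j]` by a finite set `s ⊆ B̄` with
  `j⁻ᵐ s ⊆ B̄(j⁻¹)` (the finiteness input of the abstract chart lift
  `Fermat.Agent.H17.ORD.chartLift_pair`).
-/
import Fermat.Agent.H92.ORD.BcBaseChange
import Fermat.Agent.H93.ORD.NmTotIdeal
import Fermat.Agent.H17.ORD.ModelLift
import Fermat.Agent.H84.ORD.NodalSpecFinal
import Fermat.Agent.H20.ORD.NmSoft

set_option autoImplicit false
set_option maxSynthPendingDepth 3
set_option linter.unusedSectionVars false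
set_option linter.unusedVariables false
set_option linter.style.haveILetI false
set_option synthInstance.maxHeartbeats 400000
set_option maxHeartbeats 1600000

noncomputable section

namespace Fermat.Agent.H92.ORD

open ModularCurve AlgebraicCurve
open Fermat.Agent.H22.KL Fermat.Agent.H7.SS Fermat.Agent.H7.SS2 Fermat.Agent.H93.KL
open Fermat.Agent.H9.E6 Fermat.Agent.H66 Fermat.Agent.H66.SS Fermat.Agent.H84.ORD
open Fermat.Agent.H72.FF Fermat.Agent.H82.SS Fermat.Agent.H66.ORD Fermat.Agent.H93.ORD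

section Chart

variable (M p : ℕ) [NeZero M] [NeZero p] (A : ValuationSubring QBar)
  (K₀ : IntermediateField ℚ QBar)

/-- the chart `B₀(j₀)` over `(K₀, A ∩ K₀)` -/
def bcModelChart : Set (ModelField ↥K₀ (M * p)) :=
  letI := modelAlgebra ↥K₀ (A.comap (algebraMap ↥K₀ QBar)) (M * p)
  ((chartClosure ↥(A.comap (algebraMap ↥K₀ QBar)) (ModelField ↥K₀ (M * p))
    (Fermat.Agent.H62.SS.ratK (K₁ := ↥K₀) (modularFunctionFieldFull (M * p))
      (ntiJ (M * p))) : Subalgebra _ _) : Set (ModelField ↥K₀ (M * p)))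

/-- **GENERIC base change (a)** over the number field `K₀` : every element of the `ℚ̄`-chart is,
up to a nonzero constant, an `A`-combination of base changes of elements of the chart over
`(K₀, A ∩ K₀)`. -/
def BcGenericAt : Prop :=
  ∀ f ∈ nmChart (M * p) A (nmJ (M * p)),
    ∃ c ∈ A, c ≠ 0 ∧ ∃ (n : ℕ) (a : Fin n → QBar) (b : Fin n → ModelField ↥K₀ (M * p)),
      (∀ i, a i ∈ A) ∧ (∀ i, b i ∈ bcModelChart M p A K₀) ∧
      algebraMap QBar (FLb (M * p)) c * f =
        ∑ i, algebraMap QBar (FLb (M * p)) (a i) *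
          klBc (algebraMap ↥K₀ QBar) (modularFunctionFieldFull (M * p)) (b i)

variable {M p A}

/-- `B̄(j) ⊆ V_∞ ∩ V_0`. -/
theorem nmChart_le_oo_zero (h : NmSetup M p A) {f : FLb (M * p)}
    (hf : f ∈ nmChart (M * p) A (nmJ (M * p))) :
    f ∈ gaussOBar (M * p) A ∧ f ∈ nmV0 M p h.cop A := by
  have H := nmBase_of_soft (Fermat.Agent.H20.ORD.nmSoft M p) h
  exact ⟨Fermat.Agent.H84.ORD.nmChart_le A H.oo.val (fun c hc => H.oo.const_mem c hc)
      (y := nmJ (M * p)) H.oo.j_mem hf,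
    Fermat.Agent.H84.ORD.nmChart_le A H.zero.val (fun c hc => H.zero.const_mem c hc)
      (y := nmJ (M * p)) H.zero.j_mem hf⟩

/-- `B̄(j⁻¹) ⊆ V_∞ ∩ V_0`. -/
theorem nmChartInv_le_oo_zero (h : NmSetup M p A) {f : FLb (M * p)}
    (hf : f ∈ nmChart (M * p) A (nmJ (M * p))⁻¹) :
    f ∈ gaussOBar (M * p) A ∧ f ∈ nmV0 M p h.cop A := by
  have H := nmBase_of_soft (Fermat.Agent.H20.ORD.nmSoft M p) h
  exact ⟨Fermat.Agent.H84.ORD.nmChart_le A H.oo.val (fun c hc => H.oo.const_mem c hc)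
      (y := (nmJ (M * p))⁻¹) H.oo.jinv_mem hf,
    Fermat.Agent.H84.ORD.nmChart_le A H.zero.val (fun c hc => H.zero.const_mem c hc)
      (y := (nmJ (M * p))⁻¹) H.zero.jinv_mem hf⟩

variable [FiniteDimensional ℚ ↥K₀]

/-- **[BC]** : `B̄(j) = A · bc(B₀(j₀))`, from the generic base change (a). -/
theorem nmChartBc (h : NmSetup M p A) (hgen : BcGenericAt M p A K₀)
    (f : FLb (M * p)) (hf : f ∈ nmChart (M * p) A (nmJ (M * p))) :
    f ∈ bcSpan M p (algebraMap ↥K₀ QBar) A.toSubring (bcModelChart M p A K₀) := by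
  classical
  haveI hdvr : IsDiscreteValuationRing ↥(A.comap (algebraMap ↥K₀ QBar)) :=
    Fermat.Agent.H34.modelDVR ↥K₀ (algebraMap ↥K₀ QBar) A p h.prime h.liesOver
  letI := modelAlgebra ↥K₀ (A.comap (algebraMap ↥K₀ QBar)) (M * p)
  haveI : IsScalarTower ↥(A.comap (algebraMap ↥K₀ QBar)) ↥K₀ (ModelField ↥K₀ (M * p)) :=
    modelAlgebra_isScalarTower ↥K₀ (A.comap (algebraMap ↥K₀ QBar)) (M * p)
  obtain ⟨W₁, hW₁, hW₁c⟩ := exists_modelW M p h.cop (algebraMap ↥K₀ QBar)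
  obtain ⟨ϖ, hϖ⟩ := IsDiscreteValuationRing.exists_irreducible
    ↥(A.comap (algebraMap ↥K₀ QBar))
  have hqA : ¬ IsUnit ((p : ℕ) : ↥(A.comap (algebraMap ↥K₀ QBar))) :=
    nti_natCast_not_isUnit (algebraMap ↥K₀ QBar) A h.liesOver
  have hpM : ¬ p ∣ M := (Nat.Prime.coprime_iff_not_dvd h.prime).1 h.cop.symm
  have hx := nti_coe_ratK_J (N := M * p) ↥K₀
  have hϖA : algebraMap ↥K₀ QBar (ϖ : ↥K₀) ∈ A.nonunits :=
    nti_map_mem_nonunits (algebraMap ↥K₀ QBar) A hϖ.not_isUnit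
  have hp0 : ((p : ℕ) : QBar) ≠ 0 := Nat.cast_ne_zero.2 (NeZero.ne p)
  obtain ⟨hfoo, hfz⟩ := nmChart_le_oo_zero h hf
  obtain ⟨c, hc, hc0, n, a, b, ha, hb, hrep⟩ := hgen f hf
  refine bcs_baseChange M p h.cop K₀ A W₁ hW₁c (bcModelChart M p A K₀) ?_ ?_ ?_ ?_
    (ϖ : ↥K₀) hϖA ?_ p hp0 h.liesOver f hfoo hfz c hc hc0 n a b ha hb hrep
  · intro x hx' y hy
    exact Subalgebra.add_mem _ hx' hy
  · intro c hc x hx'
    have e : algebraMap ↥K₀ (ModelField ↥K₀ (M * p)) c =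
        algebraMap ↥(A.comap (algebraMap ↥K₀ QBar)) (ModelField ↥K₀ (M * p)) ⟨c, hc⟩ := by
      rw [IsScalarTower.algebraMap_apply ↥(A.comap (algebraMap ↥K₀ QBar)) ↥K₀
        (ModelField ↥K₀ (M * p))]
      rfl
    rw [e]
    exact Subalgebra.mul_mem _ (Subalgebra.algebraMap_mem _ _) hx'
  · intro x hx'
    exact (Fermat.Agent.H17.ORD.chartClosure_le_vInf_vZero M p ↥K₀
      ↥(A.comap (algebraMap ↥K₀ QBar)) hqA ϖ hϖ _ hx W₁ hW₁ h.prime hpM x hx').1
  · intro x hx'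
    exact (Fermat.Agent.H17.ORD.chartClosure_le_vInf_vZero M p ↥K₀
      ↥(A.comap (algebraMap ↥K₀ QBar)) hqA ϖ hϖ _ hx W₁ hW₁ h.prime hpM x hx').2
  · intro z hz h1 h2
    obtain ⟨c', hc', hzc⟩ := Fermat.Agent.H17.ORD.modelPiB M p ↥K₀
      ↥(A.comap (algebraMap ↥K₀ QBar)) hqA ϖ hϖ _ hx W₁ hW₁ h.prime hpM z hz h1 h2
    refine ⟨c', hc', ?_⟩
    rw [hzc, IsScalarTower.algebraMap_apply ↥(A.comap (algebraMap ↥K₀ QBar)) ↥K₀
      (ModelField ↥K₀ (M * p))]
    rfl

/-- base change maps `A₀[x₀]` into `A[bc x₀]` -/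
theorem bc_mem_adjoin
    [IsDiscreteValuationRing ↥(A.comap (algebraMap ↥K₀ QBar))]
    [Algebra ↥(A.comap (algebraMap ↥K₀ QBar)) (ModelField ↥K₀ (M * p))]
    [IsScalarTower ↥(A.comap (algebraMap ↥K₀ QBar)) ↥K₀ (ModelField ↥K₀ (M * p))]
    (x₀ : ModelField ↥K₀ (M * p)) {r : ModelField ↥K₀ (M * p)}
    (hr : r ∈ Algebra.adjoin ↥(A.comap (algebraMap ↥K₀ QBar)) ({x₀} : Set (ModelField ↥K₀ (M * p)))) :
    (klBc (algebraMap ↥K₀ QBar) (modularFunctionFieldFull (M * p)) r : FLb (M * p)) ∈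
      Algebra.adjoin ↥A ({(klBc (algebraMap ↥K₀ QBar) (modularFunctionFieldFull (M * p)) x₀ :
        FLb (M * p))} : Set (FLb (M * p))) := by
  induction hr using Algebra.adjoin_induction with
  | mem y hy =>
    rw [Set.mem_singleton_iff] at hy
    rw [hy]
    exact Algebra.subset_adjoin (Set.mem_singleton _)
  | algebraMap a =>
    have e : (klBc (algebraMap ↥K₀ QBar) (modularFunctionFieldFull (M * p))
        (algebraMap ↥(A.comap (algebraMap ↥K₀ QBar)) (ModelField ↥K₀ (M * p)) a) : FLb (M * p)) =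
        algebraMap ↥A (FLb (M * p)) ⟨algebraMap ↥K₀ QBar (a : ↥K₀), a.2⟩ := by
      rw [IsScalarTower.algebraMap_apply ↥(A.comap (algebraMap ↥K₀ QBar)) ↥K₀
        (ModelField ↥K₀ (M * p)), Fermat.Agent.H62.SS.klBc_algebraMap']
      rfl
    rw [e]
    exact Subalgebra.algebraMap_mem _ _
  | add y z _ _ hy hz =>
    rw [map_add]
    exact Subalgebra.add_mem _ hy hz
  | mul y z _ _ hy hz =>
    rw [map_mul]
    exact Subalgebra.mul_mem _ hy hz

/-- **[FIN]** : the chart `B̄(j)` is spanned over `A[j]` by a finite set `s ⊆ B̄(j)` with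
`j⁻ᵐ s ⊆ B̄(j⁻¹)`. -/
theorem nmChartFin (h : NmSetup M p A) (hgen : BcGenericAt M p A K₀) :
    ∃ (s : Finset (FLb (M * p))) (m : ℕ),
      (∀ b ∈ s, b ∈ nmChart (M * p) A (nmJ (M * p))) ∧
      (∀ f ∈ nmChart (M * p) A (nmJ (M * p)),
        f ∈ Submodule.span ↥(Algebra.adjoin ↥A ({nmJ (M * p)} : Set (FLb (M * p))))
          (s : Set (FLb (M * p)))) ∧
      ∀ b ∈ s, (nmJ (M * p))⁻¹ ^ m * b ∈ nmChart (M * p) A (nmJ (M * p))⁻¹ := by
  classical
  haveI hdvr : IsDiscreteValuationRing ↥(A.comap (algebraMap ↥K₀ QBar)) :=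
    Fermat.Agent.H34.modelDVR ↥K₀ (algebraMap ↥K₀ QBar) A p h.prime h.liesOver
  letI := modelAlgebra ↥K₀ (A.comap (algebraMap ↥K₀ QBar)) (M * p)
  haveI : IsScalarTower ↥(A.comap (algebraMap ↥K₀ QBar)) ↥K₀ (ModelField ↥K₀ (M * p)) :=
    modelAlgebra_isScalarTower ↥K₀ (A.comap (algebraMap ↥K₀ QBar)) (M * p)
  haveI : CharZero ↥K₀ := charZero_of_injective_algebraMap (algebraMap ℚ ↥K₀).injective
  haveI : CharZero (ModelField ↥K₀ (M * p)) :=
    charZero_of_injective_algebraMap (algebraMap ↥K₀ (ModelField ↥K₀ (M * p))).injective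
  have hx := nti_coe_ratK_J (N := M * p) ↥K₀
  have hT : Transcendental ↥(A.comap (algebraMap ↥K₀ QBar))
      (Fermat.Agent.H62.SS.ratK (K₁ := ↥K₀) (modularFunctionFieldFull (M * p))
        (ntiJ (M * p))) :=
    Fermat.Agent.H58.modelTranscendental_jq (M * p) ↥K₀
      ↥(A.comap (algebraMap ↥K₀ QBar)) _ hx
  have hfin := Fermat.Agent.H57.SS.modelFinite (M * p) ↥K₀ ↥(A.comap (algebraMap ↥K₀ QBar))
    _ hx
  obtain ⟨s₀, m, hs₀, hspan₀, hm₀⟩ :=
    Fermat.Agent.H17.ORD.chartClosure_lift_data (A := ↥(A.comap (algebraMap ↥K₀ QBar))) hT hfin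
  have hbcJ : (klBc (algebraMap ↥K₀ QBar) (modularFunctionFieldFull (M * p))
      (Fermat.Agent.H62.SS.ratK (K₁ := ↥K₀) (modularFunctionFieldFull (M * p))
        (ntiJ (M * p))) : FLb (M * p)) = nmJ (M * p) := by
    rw [Fermat.Agent.H62.SS.klBc_ratK, ← nti_nmJ_eq]
  refine ⟨s₀.image (fun b => (klBc (algebraMap ↥K₀ QBar) (modularFunctionFieldFull (M * p)) b :
    FLb (M * p))), m, ?_, ?_, ?_⟩
  · intro b hb
    obtain ⟨b₀, hb₀, rfl⟩ := Finset.mem_image.1 hb
    have := bc_mem_nmChart (M * p) A (algebraMap ↥K₀ QBar) _ _ (hs₀ (Finset.mem_coe.2 hb₀))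
    rwa [hbcJ] at this
  · intro f hf
    have hfS := nmChartBc K₀ h hgen f hf
    -- generators
    have hgenr : ∀ b₀ : ModelField ↥K₀ (M * p),
        b₀ ∈ Submodule.span
          ↥(Algebra.adjoin ↥(A.comap (algebraMap ↥K₀ QBar))
            ({Fermat.Agent.H62.SS.ratK (K₁ := ↥K₀) (modularFunctionFieldFull (M * p))
              (ntiJ (M * p))} : Set (ModelField ↥K₀ (M * p))))
          (s₀ : Set (ModelField ↥K₀ (M * p))) →
        (klBc (algebraMap ↥K₀ QBar) (modularFunctionFieldFull (M * p)) b₀ : FLb (M * p)) ∈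
          Submodule.span ↥(Algebra.adjoin ↥A ({nmJ (M * p)} : Set (FLb (M * p))))
            ((s₀.image (fun b => (klBc (algebraMap ↥K₀ QBar)
              (modularFunctionFieldFull (M * p)) b : FLb (M * p))) : Finset (FLb (M * p))) :
              Set (FLb (M * p))) := by
      intro b₀ hb₀'
      induction hb₀' using Submodule.span_induction with
      | mem y hy =>
        exact Submodule.subset_span (Finset.mem_coe.2 (Finset.mem_image.2 ⟨y, hy, rfl⟩))
      | zero =>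
        rw [map_zero]
        exact Submodule.zero_mem _
      | add y z _ _ hy hz =>
        rw [map_add]
        exact Submodule.add_mem _ hy hz
      | smul r y _ hy =>
        have hr := bc_mem_adjoin (M := M) (p := p) (A := A) K₀ _ r.2
        rw [hbcJ] at hr
        have e : (klBc (algebraMap ↥K₀ QBar) (modularFunctionFieldFull (M * p)) (r • y) :
            FLb (M * p)) =
            (⟨_, hr⟩ : ↥(Algebra.adjoin ↥A ({nmJ (M * p)} : Set (FLb (M * p))))) •
              (klBc (algebraMap ↥K₀ QBar) (modularFunctionFieldFull (M * p)) y :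
                FLb (M * p)) := by
          rw [show r • y = (r : ModelField ↥K₀ (M * p)) * y from rfl, map_mul]
          rfl
        rw [e]
        exact Submodule.smul_mem _ _ hy
    have hall : ∀ g : FLb (M * p),
        g ∈ bcSpan M p (algebraMap ↥K₀ QBar) A.toSubring (bcModelChart M p A K₀) →
        g ∈ Submodule.span ↥(Algebra.adjoin ↥A ({nmJ (M * p)} : Set (FLb (M * p))))
            ((s₀.image (fun b => (klBc (algebraMap ↥K₀ QBar)
              (modularFunctionFieldFull (M * p)) b : FLb (M * p))) : Finset (FLb (M * p))) :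
              Set (FLb (M * p))) := by
      intro g hg
      unfold bcSpan at hg
      induction hg using Submodule.span_induction with
      | mem y hy =>
        obtain ⟨b₀, hb₀, rfl⟩ := hy
        exact hgenr b₀ (hspan₀ hb₀)
      | zero => exact Submodule.zero_mem _
      | add y z _ _ hy hz => exact Submodule.add_mem _ hy hz
      | smul a y _ hy =>
        have e : a • y = (algebraMap ↥A ↥(Algebra.adjoin ↥A ({nmJ (M * p)} : Set (FLb (M * p))))
            ⟨(a : QBar), a.2⟩) • y := by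
          rw [Subring.smul_def, Algebra.smul_def]
          rfl
        rw [e]
        exact Submodule.smul_mem _ _ hy
    exact hall f hfS
  · intro b hb
    obtain ⟨b₀, hb₀, rfl⟩ := Finset.mem_image.1 hb
    have := bc_mem_nmChart (M * p) A (algebraMap ↥K₀ QBar) _ _ (hm₀ b₀ (Finset.mem_coe.2 hb₀))
    rwa [map_mul, map_pow, map_inv₀, hbcJ] at this

end Chart

end Fermat.Agent.H92.ORD

end
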