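/-
P-ORD, block B1-ANCHOR (helper92; findings #569, #594): **[BC]** and **[FIN]** for the chart `j`
of the nodal model of `X₀(M p)`, UNCONDITIONAL.

* `bcGenericAt` : the generic base change (a) over any `K₀` (helper93's `bcg_generic`);
* `nmChartBcClosed` : **[BC]** `B̄(j) = A · bc(B₀(j₀))` over `K₀ = ℚ`;
* `nmChartFinClosed : Fermat.Agent.H94.ORD.NmChartFinStatement M p` : **[FIN]**;
* `nmChartL3Closed : Fermat.Agent.H94.ORD.NmChartL3Statement M p` : **[L3bar]** (from [BC] and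
  the saturation `bcs_l3bar`);
* `nmChartLiftClosed : Fermat.Agent.H37.ORD.NmChartLiftStatement M p` : **[LIFT]** THE CHART LIFT
  (helper94's `nmChartLift_of_fin_l3`).
-/
import Fermat.Agent.H92.ORD.BcChart
import Fermat.Agent.H93.ORD.BcGeneric
import Fermat.Agent.H94.ORD.NmChartLiftNm

set_option autoImplicit false
set_option maxSynthPendingDepth 3
set_option linter.unusedSectionVars false
set_option linter.unusedVariables false
set_option linter.style.haveILetI false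
set_option synthInstance.maxHeartbeats 400000
set_option maxHeartbeats 1600000

noncomputable section

namespace Fermat.Agent.H92.ORD

open ModularCurve AlgebraicCurve
open Fermat.Agent.H22.KL Fermat.Agent.H7.SS Fermat.Agent.H7.SS2 Fermat.Agent.H93.KL
open Fermat.Agent.H9.E6 Fermat.Agent.H66 Fermat.Agent.H66.SS Fermat.Agent.H84.ORD
open Fermat.Agent.H72.FF Fermat.Agent.H82.SS Fermat.Agent.H66.ORD Fermat.Agent.H93.ORD

section Closed

variable (M p : ℕ) [NeZero M] [NeZero p] (A : ValuationSubring QBar)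
  (K₀ : IntermediateField ℚ QBar)

/-- **[BC](a)** the generic base change, over any intermediate field `K₀`. -/
theorem bcGenericAt : BcGenericAt M p A K₀ := by
  intro f hf
  letI := modelAlgebra ↥K₀ (A.comap (algebraMap ↥K₀ QBar)) (M * p)
  haveI : IsScalarTower ↥(A.comap (algebraMap ↥K₀ QBar)) ↥K₀ (ModelField ↥K₀ (M * p)) :=
    modelAlgebra_isScalarTower ↥K₀ (A.comap (algebraMap ↥K₀ QBar)) (M * p)
  have hf' : f ∈ nmChart (M * p) A (klBc (algebraMap ↥K₀ QBar) (modularFunctionFieldFull (M * p))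
      (Fermat.Agent.H62.SS.ratK (K₁ := ↥K₀) (modularFunctionFieldFull (M * p))
        (ntiJ (M * p)))) := by
    rw [Fermat.Agent.H62.SS.klBc_ratK, ← nti_nmJ_eq]
    exact hf
  obtain ⟨c, hc, hc0, n, a, b, ha, hb, hrep⟩ :=
    Fermat.Agent.H93.ORD.bcg_generic (M * p) A K₀ _ f hf'
  exact ⟨c, hc, hc0, n, a, b, ha, hb, hrep⟩

variable {M p A}

/-- **[BC]** `B̄(j) = A · bc(B₀(j₀))`, unconditional. -/
theorem nmChartBcClosed [FiniteDimensional ℚ ↥K₀] (h : NmSetup M p A)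
    (f : FLb (M * p)) (hf : f ∈ nmChart (M * p) A (nmJ (M * p))) :
    f ∈ bcSpan M p (algebraMap ↥K₀ QBar) A.toSubring (bcModelChart M p A K₀) :=
  nmChartBc K₀ h (bcGenericAt M p A K₀) f hf

variable (M p)

/-- **[FIN]** for the chart `j`, unconditional. -/
theorem nmChartFinClosed : Fermat.Agent.H94.ORD.NmChartFinStatement M p := fun A h =>
  nmChartFin (⊥ : IntermediateField ℚ QBar) h (bcGenericAt M p A ⊥)

/-- `A · bc(B₀(j₀)) ⊆ B̄(j)`. -/
theorem bcSpan_le_nmChart (A : ValuationSubring QBar) (K₀ : IntermediateField ℚ QBar)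
    (g : FLb (M * p))
    (hg : g ∈ bcSpan M p (algebraMap ↥K₀ QBar) A.toSubring (bcModelChart M p A K₀)) :
    g ∈ nmChart (M * p) A (nmJ (M * p)) := by
  letI := modelAlgebra ↥K₀ (A.comap (algebraMap ↥K₀ QBar)) (M * p)
  haveI : IsScalarTower ↥(A.comap (algebraMap ↥K₀ QBar)) ↥K₀ (ModelField ↥K₀ (M * p)) :=
    modelAlgebra_isScalarTower ↥K₀ (A.comap (algebraMap ↥K₀ QBar)) (M * p)
  have hbcJ : (klBc (algebraMap ↥K₀ QBar) (modularFunctionFieldFull (M * p))
      (Fermat.Agent.H62.SS.ratK (K₁ := ↥K₀) (modularFunctionFieldFull (M * p))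
        (ntiJ (M * p))) : FLb (M * p)) = nmJ (M * p) := by
    rw [Fermat.Agent.H62.SS.klBc_ratK, ← nti_nmJ_eq]
  unfold bcSpan at hg
  induction hg using Submodule.span_induction with
  | mem y hy =>
    obtain ⟨b₀, hb₀, rfl⟩ := hy
    have := bc_mem_nmChart (M * p) A (algebraMap ↥K₀ QBar) _ _ hb₀
    rwa [hbcJ] at this
  | zero => exact Subring.zero_mem _
  | add y z _ _ hy hz => exact Subring.add_mem _ hy hz
  | smul a y _ hy =>
    rw [Subring.smul_def, Algebra.smul_def]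
    exact Subring.mul_mem _ (algebraMap_mem_nmChart A _ a.2) hy

/-- **[L3bar]** for the chart `j`, unconditional : `B̄ ∩ 𝔪_∞ ∩ 𝔪_0 = 𝔪_A B̄`. -/
theorem nmChartL3Closed : Fermat.Agent.H94.ORD.NmChartL3Statement M p := by
  classical
  intro A h g hg hoo hz
  let K₀ : IntermediateField ℚ QBar := ⊥
  haveI hdvr : IsDiscreteValuationRing ↥(A.comap (algebraMap ↥K₀ QBar)) :=
    Fermat.Agent.H34.modelDVR ↥K₀ (algebraMap ↥K₀ QBar) A p h.prime h.liesOver
  letI := modelAlgebra ↥K₀ (A.comap (algebraMap ↥K₀ QBar)) (M * p)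
  haveI : IsScalarTower ↥(A.comap (algebraMap ↥K₀ QBar)) ↥K₀ (ModelField ↥K₀ (M * p)) :=
    modelAlgebra_isScalarTower ↥K₀ (A.comap (algebraMap ↥K₀ QBar)) (M * p)
  obtain ⟨W₁, hW₁, hW₁c⟩ := exists_modelW M p h.cop (algebraMap ↥K₀ QBar)
  obtain ⟨ϖ, hϖ⟩ := IsDiscreteValuationRing.exists_irreducible
    ↥(A.comap (algebraMap ↥K₀ QBar))
  have hqA : ¬ IsUnit ((p : ℕ) : ↥(A.comap (algebraMap ↥K₀ QBar))) :=
    nti_natCast_not_isUnit (algebraMap ↥K₀ QBar) A h.liesOver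
  have hpM : ¬ p ∣ M := (Nat.Prime.coprime_iff_not_dvd h.prime).1 h.cop.symm
  have hx := nti_coe_ratK_J (N := M * p) ↥K₀
  have hϖA : algebraMap ↥K₀ QBar (ϖ : ↥K₀) ∈ A.nonunits :=
    nti_map_mem_nonunits (algebraMap ↥K₀ QBar) A hϖ.not_isUnit
  have hgS := nmChartBcClosed K₀ h g hg
  have key : ∃ ε ∈ A.nonunits, ∃ g' ∈ bcSpan M p (algebraMap ↥K₀ QBar) A.toSubring
      (bcModelChart M p A K₀), g = algebraMap QBar (FLb (M * p)) ε * g' := by
    refine bcs_l3bar M p h.cop K₀ A W₁ hW₁c (bcModelChart M p A K₀)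
      ?_ ?_ ?_ ?_ (ϖ : ↥K₀) hϖA ?_ g hgS hoo hz
    · intro x hx' y hy
      exact Subalgebra.add_mem _ hx' hy
    · intro c hc x hx'
      have e : algebraMap ↥K₀ (ModelField ↥K₀ (M * p)) c =
          algebraMap ↥(A.comap (algebraMap ↥K₀ QBar)) (ModelField ↥K₀ (M * p)) ⟨c, hc⟩ := by
        rw [IsScalarTower.algebraMap_apply ↥(A.comap (algebraMap ↥K₀ QBar)) ↥K₀
          (ModelField ↥K₀ (M * p))]
        rfl
      rw [e]
      exact Subalgebra.mul_mem _ (Subalgebra.algebraMap_mem _ _) hx'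
    · intro x hx'
      exact (Fermat.Agent.H17.ORD.chartClosure_le_vInf_vZero M p ↥K₀
        ↥(A.comap (algebraMap ↥K₀ QBar)) hqA ϖ hϖ _ hx W₁ hW₁ h.prime hpM x hx').1
    · intro x hx'
      exact (Fermat.Agent.H17.ORD.chartClosure_le_vInf_vZero M p ↥K₀
        ↥(A.comap (algebraMap ↥K₀ QBar)) hqA ϖ hϖ _ hx W₁ hW₁ h.prime hpM x hx').2
    · intro z hz h1 h2
      obtain ⟨c', hc', hzc⟩ := Fermat.Agent.H17.ORD.modelPiB M p ↥K₀
        ↥(A.comap (algebraMap ↥K₀ QBar)) hqA ϖ hϖ _ hx W₁ hW₁ h.prime hpM z hz h1 h2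
      refine ⟨c', hc', ?_⟩
      rw [hzc, IsScalarTower.algebraMap_apply ↥(A.comap (algebraMap ↥K₀ QBar)) ↥K₀
        (ModelField ↥K₀ (M * p))]
      rfl
  obtain ⟨ε, hε, g', hg', hgeq⟩ := key
  exact ⟨ε, hε, g', bcSpan_le_nmChart M p A K₀ g' hg', hgeq⟩

/-- **[LIFT]** THE CHART LIFT FOR `nmG`, UNCONDITIONAL. -/
theorem nmChartLiftClosed : Fermat.Agent.H37.ORD.NmChartLiftStatement M p :=
  Fermat.Agent.H94.ORD.nmChartLift_of_fin_l3 M p (nmChartFinClosed M p) (nmChartL3Closed M p)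

/-- **[LIFT]** the chart lift for `nmG` from [L3bar] alone. -/
theorem nmChartLift_of_l3 (hL3 : Fermat.Agent.H94.ORD.NmChartL3Statement M p) :
    Fermat.Agent.H37.ORD.NmChartLiftStatement M p :=
  Fermat.Agent.H94.ORD.nmChartLift_of_fin_l3 M p (nmChartFinClosed M p) hL3

end Closed

end Fermat.Agent.H92.ORD

end
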